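import Fermat.Agent.BalogSzemerediGowers.Main
import Mathlib.Algebra.Group.Pointwise.Finset.Basic
import Mathlib.Tactic.Group

/-!
# Large energy gives small tripling

The theorem of Balog, Szemerédi and Gowers for groups which need not be commutative, in Tao's form:
a set of large energy meets a translate of a symmetric set of small tripling in a large part.
-/

set_option autoImplicit false

noncomputable section

namespace FA.BourgainGamburd

open Finset
open scoped Pointwise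

variable {G : Type*} [Group G] [DecidableEq G]

/-- The number of ways to write `h = a⁻¹ b`. -/
def repL (A : Finset G) (h : G) : ℕ := #((A ×ˢ A).filter fun q => q.1⁻¹ * q.2 = h)

/-- The number of ways to write `h = a b⁻¹`. -/
def repR (A : Finset G) (h : G) : ℕ := #((A ×ˢ A).filter fun q => q.1 * q.2⁻¹ = h)

/-- The energy of left quotients. -/
def energyL (A : Finset G) : ℕ := ∑ h ∈ A⁻¹ * A, repL A h ^ 2

/-- The energy of products. -/
def energyM (A : Finset G) : ℕ :=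
  #(((A ×ˢ A) ×ˢ (A ×ˢ A)).filter fun z => z.1.1 * z.1.2 = z.2.1 * z.2.2)

theorem sum_repL (A : Finset G) : ∑ h ∈ A⁻¹ * A, repL A h = #A ^ 2 := by
  rw [sq, ← card_product]
  exact (card_eq_sum_card_fiberwise fun q hq =>
    mul_mem_mul (inv_mem_inv (mem_product.1 hq).1) (mem_product.1 hq).2).symm

theorem sum_repR (A : Finset G) : ∑ h ∈ A * A⁻¹, repR A h = #A ^ 2 := by
  rw [sq, ← card_product]
  exact (card_eq_sum_card_fiberwise fun q hq =>
    mul_mem_mul (mem_product.1 hq).1 (inv_mem_inv (mem_product.1 hq).2)).symm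

theorem repL_inv (A : Finset G) (h : G) : repL A h⁻¹ = repL A h := by
  refine card_nbij' Prod.swap Prod.swap ?_ ?_ (fun _ _ => rfl) fun _ _ => rfl <;>
  · intro q hq
    simp only [mem_coe, mem_filter, mem_product, Prod.fst_swap, Prod.snd_swap] at hq ⊢
    exact ⟨⟨hq.1.2, hq.1.1⟩, by
      simpa [mul_inv_rev] using congrArg (·⁻¹) hq.2⟩

theorem repR_inv (A : Finset G) (h : G) : repR A h⁻¹ = repR A h := by
  refine card_nbij' Prod.swap Prod.swap ?_ ?_ (fun _ _ => rfl) fun _ _ => rfl <;>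
  · intro q hq
    simp only [mem_coe, mem_filter, mem_product, Prod.fst_swap, Prod.snd_swap] at hq ⊢
    exact ⟨⟨hq.1.2, hq.1.1⟩, by
      simpa [mul_inv_rev] using congrArg (·⁻¹) hq.2⟩

theorem repL_le (A : Finset G) (h : G) : repL A h ≤ #A := by
  refine card_le_card_of_injOn Prod.fst (fun q hq => (mem_product.1 (mem_filter.1 hq).1).1)
    fun q hq q' hq' e => Prod.ext e ?_
  rw [mem_coe, mem_filter] at hq hq'
  have := hq.2.trans hq'.2.symm
  rw [e] at this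
  exact mul_left_cancel this

theorem repR_le (A : Finset G) (h : G) : repR A h ≤ #A := by
  refine card_le_card_of_injOn Prod.fst (fun q hq => (mem_product.1 (mem_filter.1 hq).1).1)
    fun q hq q' hq' e => Prod.ext e ?_
  rw [mem_coe, mem_filter] at hq hq'
  have := hq.2.trans hq'.2.symm
  rw [e] at this
  exact inv_injective (mul_left_cancel this)

theorem repL_eq_zero {A : Finset G} {h : G} (hh : h ∉ A⁻¹ * A) : repL A h = 0 :=
  card_eq_zero.2 (filter_eq_empty_iff.2 fun _ hq e =>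
    hh (e ▸ mul_mem_mul (inv_mem_inv (mem_product.1 hq).1) (mem_product.1 hq).2))

theorem repR_eq_zero {A : Finset G} {h : G} (hh : h ∉ A * A⁻¹) : repR A h = 0 :=
  card_eq_zero.2 (filter_eq_empty_iff.2 fun _ hq e =>
    hh (e ▸ mul_mem_mul (mem_product.1 hq).1 (inv_mem_inv (mem_product.1 hq).2)))

/-- The energy of products is bounded by that of left quotients. -/
theorem energyM_sq_le (A : Finset G) : energyM A ^ 2 ≤ #A ^ 3 * energyL A := by
  have e : energyM A = ∑ h ∈ A⁻¹ * A, repL A h * repR A h := by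
    rw [energyM, card_eq_sum_card_fiberwise (f := fun z => z.2.1⁻¹ * z.1.1) (t := A⁻¹ * A)
      fun z hz => mul_mem_mul (inv_mem_inv (mem_product.1 (mem_product.1 (mem_filter.1 hz).1).2).1)
        (mem_product.1 (mem_product.1 (mem_filter.1 hz).1).1).1]
    refine sum_congr rfl fun h _ => ?_
    rw [repL, repR, ← card_product]
    refine card_nbij' (fun z => ((z.2.1, z.1.1), (z.2.2, z.1.2)))
      (fun z => ((z.1.2, z.2.2), (z.1.1, z.2.1))) ?_ ?_ (fun _ _ => rfl) fun _ _ => rfl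
    · intro z hz
      simp only [mem_coe, mem_filter, mem_product] at hz ⊢
      obtain ⟨⟨⟨⟨ha, hb⟩, hc, hd⟩, he⟩, hh⟩ := hz
      refine ⟨⟨⟨hc, ha⟩, hh⟩, ⟨hd, hb⟩, ?_⟩
      rw [← hh, mul_inv_eq_iff_eq_mul, mul_assoc, he, inv_mul_cancel_left]
    · intro z hz
      simp only [mem_coe, mem_filter, mem_product] at hz ⊢
      obtain ⟨⟨⟨hc, ha⟩, hh⟩, ⟨hd, hb⟩, h2⟩ := hz
      refine ⟨⟨⟨⟨ha, hb⟩, hc, hd⟩, ?_⟩, hh⟩
      rw [← hh, mul_inv_eq_iff_eq_mul, mul_assoc] at h2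
      rw [h2, mul_inv_cancel_left]
  have hR : ∑ h ∈ A⁻¹ * A, repR A h ^ 2 ≤ #A ^ 3 := by
    calc ∑ h ∈ A⁻¹ * A, repR A h ^ 2 ≤ ∑ h ∈ A⁻¹ * A, #A * repR A h :=
          sum_le_sum fun h _ => by rw [sq]; exact Nat.mul_le_mul_right _ (repR_le A h)
      _ ≤ ∑ h ∈ (A⁻¹ * A) ∪ A * A⁻¹, #A * repR A h := sum_le_sum_of_subset subset_union_left
      _ = ∑ h ∈ A * A⁻¹, #A * repR A h := (sum_subset subset_union_right fun h _ hh => by
          rw [repR_eq_zero hh, mul_zero]).symm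
      _ = #A ^ 3 := by rw [← mul_sum, sum_repR]; ring
  rw [e, mul_comm (#A ^ 3)]
  exact (sum_mul_sq_le_sq_mul_sq _ _ _).trans (Nat.mul_le_mul_left _ hR)

/-- **The theorem of Balog, Szemerédi and Gowers.** -/
theorem exists_small_quotient {A : Finset G} (hA : A.Nonempty) {P : ℝ} (hP : 1 ≤ P)
    (hE : (#A : ℝ) ^ 3 ≤ P * energyL A) :
    ∃ A' ⊆ A, (#A : ℝ) ≤ 8 * P * #A' ∧ (#(A'⁻¹ * A') : ℝ) ≤ 2 ^ 22 * P ^ 10 * #A' := by
  classical
  set n : ℝ := (#A : ℝ) with hn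
  have hn0 : 0 < n := Nat.cast_pos.2 hA.card_pos
  have hP0 : 0 < P := by linarith
  obtain ⟨δ, hδdef⟩ : ∃ δ, δ = 1 / (2 * P) := ⟨_, rfl⟩
  have hδ : 0 < δ := by rw [hδdef]; positivity
  set Q := (A⁻¹ * A).filter fun x => δ * n ≤ (repL A x : ℝ) with hQ
  have hsumQ : δ * n ^ 2 ≤ ∑ x ∈ Q, (repL A x : ℝ) := by
    have h1 : (energyL A : ℝ) ≤ n * ∑ x ∈ Q, (repL A x : ℝ) + δ * n * n ^ 2 := by
      rw [energyL, Nat.cast_sum, ← sum_filter_add_sum_filter_not (A⁻¹ * A)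
        (fun x => δ * n ≤ (repL A x : ℝ)), mul_sum]
      refine add_le_add (sum_le_sum fun x _ => ?_) ?_
      · rw [Nat.cast_pow, sq]
        exact mul_le_mul_of_nonneg_right (Nat.cast_le.2 (repL_le A x)) (Nat.cast_nonneg _)
      · refine (sum_le_sum (g := fun x => δ * n * (repL A x : ℝ)) fun x hx => ?_).trans ?_
        · rw [Nat.cast_pow, sq]
          exact mul_le_mul_of_nonneg_right (not_le.1 (mem_filter.1 hx).2).le (Nat.cast_nonneg _)
        · rw [← mul_sum]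
          refine mul_le_mul_of_nonneg_left ?_ (by positivity)
          rw [hn, ← Nat.cast_pow, ← sum_repL, Nat.cast_sum]
          exact sum_le_sum_of_subset_of_nonneg (filter_subset _ _) fun _ _ _ => Nat.cast_nonneg _
    refine le_of_mul_le_mul_left ?_ hn0
    have h2 : 2 * δ * n ^ 3 ≤ (energyL A : ℝ) := by
      rw [hδdef]
      field_simp
      linarith
    linarith
  have hsymm : ∀ {a b : G}, a ∈ A → b ∈ A → a⁻¹ * b ∈ Q → b⁻¹ * a ∈ Q := fun {a b} ha hb h => by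
    rw [hQ, mem_filter] at h ⊢
    refine ⟨mul_mem_mul (inv_mem_inv hb) ha, ?_⟩
    rw [show b⁻¹ * a = (a⁻¹ * b)⁻¹ by group, repL_inv]
    exact h.2
  obtain ⟨A', hA', hsize, hpaths⟩ :=
    BalogSzemerediGowers.exists_subset_many_paths A (fun a b => a⁻¹ * b ∈ Q) hδ (by
      refine hsumQ.trans ?_
      rw [← Nat.cast_sum, Nat.cast_le, card_eq_sum_card_fiberwise
        (f := fun q : G × G => q.1⁻¹ * q.2)
        (s := (A ×ˢ A).filter fun q => q.1⁻¹ * q.2 ∈ Q) (t := Q) fun q hq => (mem_filter.1 hq).2]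
      refine sum_le_sum fun x hx => card_le_card fun q hq => ?_
      rw [mem_filter] at hq
      rw [mem_filter, mem_filter]
      exact ⟨⟨hq.1, hq.2 ▸ hx⟩, hq.2⟩) hA
  refine ⟨A', hA', ?_, ?_⟩
  · rw [hδdef] at hsize
    field_simp at hsize
    linarith
  have hQcard : δ * #Q ≤ n := by
    refine le_of_mul_le_mul_left ?_ hn0
    calc n * (δ * #Q) = #Q • (δ * n) := by rw [nsmul_eq_mul]; ring
      _ ≤ ∑ x ∈ Q, (repL A x : ℝ) := card_nsmul_le_sum _ _ _ fun x hx => (mem_filter.1 hx).2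
      _ ≤ ∑ x ∈ A⁻¹ * A, (repL A x : ℝ) :=
          sum_le_sum_of_subset_of_nonneg (filter_subset _ _) fun _ _ _ => Nat.cast_nonneg _
      _ = n * n := by rw [← Nat.cast_sum, sum_repL, hn]; push_cast; ring
  have hcount : (#(A'⁻¹ * A') : ℝ) * (δ ^ 5 * n ^ 3 / 1024) ≤ (#Q : ℝ) ^ 4 := by
    set R := Q ×ˢ Q ×ˢ Q ×ˢ Q with hR
    have hRcard : (#R : ℝ) = (#Q : ℝ) ^ 4 := by
      simp only [hR, card_product, Nat.cast_mul]
      ring
    set f : G × G × G × G → G := fun t => t.1 * t.2.1 * t.2.2.1 * t.2.2.2 with hf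
    have hfib : ∀ d ∈ A'⁻¹ * A', δ ^ 5 * n ^ 3 / 1024 ≤
        ((#((R.filter fun t => f t ∈ A'⁻¹ * A').filter fun t => f t = d) : ℕ) : ℝ) := by
      intro d hd
      obtain ⟨y, hy, a', ha', rfl⟩ := mem_mul.1 hd
      obtain ⟨a, ha, rfl⟩ := Finset.mem_inv.1 hy
      refine (hpaths a ha a' ha').trans (Nat.cast_le.2 (card_le_card_of_injOn
        (fun q => (a⁻¹ * q.1, q.1⁻¹ * q.2.1, q.2.1⁻¹ * q.2.2, q.2.2⁻¹ * a')) (fun q hq => ?_) ?_))
      · simp only [mem_coe, mem_filter, mem_product, hR, hf] at hq ⊢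
        obtain ⟨⟨hu, hc, hv⟩, ⟨h1, h2⟩, h3, h4⟩ := hq
        have e : a⁻¹ * q.1 * (q.1⁻¹ * q.2.1) * (q.2.1⁻¹ * q.2.2) * (q.2.2⁻¹ * a') = a⁻¹ * a' := by
          group
        exact ⟨⟨⟨h1, hsymm hc hu h2, h3, hsymm (hA' ha') hv h4⟩, e ▸ hd⟩, e⟩
      · rintro ⟨u, c, v⟩ _ ⟨u', c', v'⟩ _ h
        simp only [Prod.mk.injEq] at h
        obtain rfl := mul_left_cancel h.1
        obtain rfl := mul_left_cancel h.2.1
        obtain rfl := mul_left_cancel h.2.2.1
        rfl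
    rw [← hRcard, ← nsmul_eq_mul]
    refine (card_nsmul_le_sum _ _ _ hfib).trans ?_
    rw [← Nat.cast_sum, Nat.cast_le, ← card_eq_sum_card_fiberwise (f := f)
      (s := R.filter fun t => f t ∈ A'⁻¹ * A') (t := A'⁻¹ * A') fun t ht => (mem_filter.1 ht).2]
    exact card_filter_le _ _
  have hδK : (2 : ℝ) * P * δ = 1 := by rw [hδdef]; field_simp
  refine le_of_mul_le_mul_right ?_ (show 0 < δ ^ 9 * n ^ 3 by positivity)
  calc (#(A'⁻¹ * A') : ℝ) * (δ ^ 9 * n ^ 3)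
      = 1024 * δ ^ 4 * ((#(A'⁻¹ * A') : ℝ) * (δ ^ 5 * n ^ 3 / 1024)) := by ring
    _ ≤ 1024 * δ ^ 4 * (#Q : ℝ) ^ 4 := mul_le_mul_of_nonneg_left hcount (by positivity)
    _ = 1024 * (δ * #Q) ^ 4 := by ring
    _ ≤ 1024 * n ^ 4 := mul_le_mul_of_nonneg_left
        (pow_le_pow_left₀ (by positivity) hQcard 4) (by norm_num)
    _ = 4096 * n ^ 3 * (n / 4) := by ring
    _ = 4096 * (2 * P * δ) ^ 10 * n ^ 3 * (n / 4) := by rw [hδK, one_pow, mul_one]
    _ = 2 ^ 22 * P ^ 10 * (δ * n / 4) * (δ ^ 9 * n ^ 3) := by ring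
    _ ≤ _ := by gcongr

/-- **Tao**: from a small quotient set to a symmetric set of small tripling. -/
theorem exists_small_tripling {B : Finset G} (hB : B.Nonempty) {T : ℝ} (hT : 1 ≤ T)
    (h : (#(B⁻¹ * B) : ℝ) ≤ T * #B) :
    ∃ D : Finset G, 1 ∈ D ∧ D⁻¹ = D ∧ (#D : ℝ) ≤ 2 * T * #B ∧
      (#(D ^ 3) : ℝ) ≤ 16 * T ^ 6 * #D ∧
      ∃ b : G, (#B : ℝ) ≤ 2 * T * #(B.filter fun a => a * b⁻¹ ∈ D) := by
  classical
  set m : ℝ := (#B : ℝ) with hm
  have hm0 : 0 < m := Nat.cast_pos.2 hB.card_pos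
  have hT0 : 0 < T := by linarith
  set τ : ℝ := m / (2 * T) with hτ
  have hτ0 : 0 < τ := by positivity
  set D := (B * B⁻¹).filter fun x => τ ≤ (repR B x : ℝ) with hD
  have hsq : m ^ 3 / T ≤ ∑ x ∈ B * B⁻¹, (repR B x : ℝ) ^ 2 := by
    have e : ∑ x ∈ B * B⁻¹, repR B x ^ 2 = energyL B := by
      have hexp : ∀ (s : Finset G) (r : G × G → G), (∀ q ∈ B ×ˢ B, r q ∈ s) →
          ∑ x ∈ s, #((B ×ˢ B).filter fun q => r q = x) ^ 2 =
            #(((B ×ˢ B) ×ˢ (B ×ˢ B)).filter fun z => r z.1 = r z.2) := fun s r hr => by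
        rw [card_eq_sum_card_fiberwise (f := fun z : (G × G) × (G × G) => r z.1) (t := s)
          fun z hz => hr _ (mem_product.1 (mem_filter.1 hz).1).1]
        refine sum_congr rfl fun x _ => ?_
        rw [sq, ← card_product]
        congr 1
        ext z
        simp only [mem_filter, mem_product]
        constructor
        · rintro ⟨⟨h1, e1⟩, h2, e2⟩
          exact ⟨⟨⟨h1, h2⟩, e1.trans e2.symm⟩, e1⟩
        · rintro ⟨⟨⟨h1, h2⟩, e⟩, e1⟩
          exact ⟨⟨h1, e1⟩, h2, e ▸ e1⟩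
      rw [energyL]
      simp only [repR, repL]
      rw [hexp _ (fun q => q.1 * q.2⁻¹) (fun q hq =>
          mul_mem_mul (mem_product.1 hq).1 (inv_mem_inv (mem_product.1 hq).2)),
        hexp _ (fun q => q.1⁻¹ * q.2) (fun q hq =>
          mul_mem_mul (inv_mem_inv (mem_product.1 hq).1) (mem_product.1 hq).2)]
      refine card_nbij' (fun z => ((z.2.1, z.1.1), (z.2.2, z.1.2)))
        (fun z => ((z.1.2, z.2.2), (z.1.1, z.2.1))) ?_ ?_ (fun _ _ => rfl) fun _ _ => rfl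
      · intro z hz
        simp only [mem_coe, mem_filter, mem_product] at hz ⊢
        obtain ⟨⟨⟨ha, hb⟩, hc, hd⟩, he⟩ := hz
        refine ⟨⟨⟨hc, ha⟩, hd, hb⟩, ?_⟩
        rw [inv_mul_eq_iff_eq_mul, ← mul_assoc, ← he, inv_mul_cancel_right]
      · intro z hz
        simp only [mem_coe, mem_filter, mem_product] at hz ⊢
        obtain ⟨⟨⟨hc, ha⟩, hd, hb⟩, he⟩ := hz
        refine ⟨⟨⟨ha, hb⟩, hc, hd⟩, ?_⟩
        rw [inv_mul_eq_iff_eq_mul, ← mul_assoc] at he
        rw [he, mul_inv_cancel_right]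
    have hcs := sq_sum_le_card_mul_sum_sq (s := B⁻¹ * B) (f := fun x => repL B x)
    rw [sum_repL, ← energyL, ← e] at hcs
    have hcs' : (#B : ℝ) ^ 4 ≤ #(B⁻¹ * B) * ∑ x ∈ B * B⁻¹, (repR B x : ℝ) ^ 2 := by
      have : ((#B ^ 2) ^ 2 : ℕ) ≤ #(B⁻¹ * B) * ∑ x ∈ B * B⁻¹, repR B x ^ 2 := hcs
      have := (Nat.cast_le (α := ℝ)).2 this
      push_cast at this
      linarith
    rw [div_le_iff₀ hT0]
    refine le_of_mul_le_mul_left ?_ hm0
    calc m * m ^ 3 = (#B : ℝ) ^ 4 := by rw [hm]; ring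
      _ ≤ T * m * ∑ x ∈ B * B⁻¹, (repR B x : ℝ) ^ 2 := hcs'.trans (by gcongr)
      _ = m * ((∑ x ∈ B * B⁻¹, (repR B x : ℝ) ^ 2) * T) := by ring
  have hpop : m ^ 2 / (2 * T) ≤ ∑ x ∈ D, (repR B x : ℝ) := by
    have h1 : ∑ x ∈ B * B⁻¹, (repR B x : ℝ) ^ 2 ≤ m * ∑ x ∈ D, (repR B x : ℝ) + τ * m ^ 2 := by
      rw [← sum_filter_add_sum_filter_not (B * B⁻¹) (fun x => τ ≤ (repR B x : ℝ)), mul_sum]
      refine add_le_add (sum_le_sum fun x _ => ?_) ?_
      · rw [sq]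
        exact mul_le_mul_of_nonneg_right (Nat.cast_le.2 (repR_le B x)) (Nat.cast_nonneg _)
      · refine (sum_le_sum (g := fun x => τ * (repR B x : ℝ)) fun x hx => ?_).trans ?_
        · rw [sq]
          exact mul_le_mul_of_nonneg_right (not_le.1 (mem_filter.1 hx).2).le (Nat.cast_nonneg _)
        · rw [← mul_sum]
          refine mul_le_mul_of_nonneg_left ?_ hτ0.le
          rw [hm, ← Nat.cast_pow, ← sum_repR, Nat.cast_sum]
          exact sum_le_sum_of_subset_of_nonneg (filter_subset _ _) fun _ _ _ => Nat.cast_nonneg _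
    refine le_of_mul_le_mul_left ?_ hm0
    have : τ * m ^ 2 = m ^ 3 / T / 2 := by rw [hτ]; field_simp
    have : m * (m ^ 2 / (2 * T)) = m ^ 3 / T / 2 := by field_simp
    linarith
  have hone : (1 : G) ∈ D := by
    obtain ⟨a, ha⟩ := hB
    refine mem_filter.2 ⟨by simpa using mul_mem_mul ha (inv_mem_inv ha), ?_⟩
    refine le_trans ?_ (Nat.cast_le.2 (show #B ≤ repR B 1 from card_le_card_of_injOn
      (fun a => (a, a)) (fun a ha => by simp_all) fun a _ b _ e => (Prod.mk.injEq .. ▸ e).1))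
    rw [← hm, hτ, div_le_iff₀ (by positivity)]
    nlinarith
  have hsymm : D⁻¹ = D := by
    ext x
    simp only [mem_inv', hD, mem_filter, repR_inv]
    refine and_congr_left fun _ => ?_
    rw [← mem_inv', mul_inv_rev, inv_inv]
  have hDle : (#D : ℝ) * τ ≤ ∑ x ∈ D, (repR B x : ℝ) := by
    rw [← nsmul_eq_mul]
    exact card_nsmul_le_sum _ _ _ fun x hx => (mem_filter.1 hx).2
  have hDsum : ∑ x ∈ D, (repR B x : ℝ) ≤ m ^ 2 := by
    rw [hm, ← Nat.cast_pow, ← sum_repR, Nat.cast_sum]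
    exact sum_le_sum_of_subset_of_nonneg (filter_subset _ _) fun _ _ _ => Nat.cast_nonneg _
  have hDlow : m / (2 * T) ≤ #D := by
    refine le_of_mul_le_mul_right (hpop.trans' (le_of_eq ?_) |>.trans ?_) hm0
    · ring
    · rw [← nsmul_eq_mul]
      exact sum_le_card_nsmul _ _ _ fun x _ => by rw [hm]; exact Nat.cast_le.2 (repR_le B x)
  have h3 : (#(D ^ 3) : ℝ) * τ ^ 3 ≤ m ^ 2 * (T * m) ^ 2 := by
    set Z := B ×ˢ (B⁻¹ * B) ×ˢ (B⁻¹ * B) ×ˢ B⁻¹
    set f : G × G × G × G → G := fun t => t.1 * t.2.1 * t.2.2.1 * t.2.2.2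
    have hfib : ∀ d ∈ D ^ 3, τ ^ 3 ≤
        ((#((Z.filter fun t => f t ∈ D ^ 3).filter fun t => f t = d) : ℕ) : ℝ) := by
      intro d hd
      have hd' := hd
      rw [pow_three', mem_mul] at hd'
      obtain ⟨y, hy, z, hz, rfl⟩ := hd'
      obtain ⟨u, hu, v, hv, rfl⟩ := mem_mul.1 hy
      have hle : τ ^ 3 ≤ (repR B u : ℝ) * (repR B v : ℝ) * (repR B z : ℝ) := by
        rw [pow_succ, pow_two]
        exact mul_le_mul (mul_le_mul (mem_filter.1 hu).2 (mem_filter.1 hv).2 hτ0.le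
          (Nat.cast_nonneg _)) (mem_filter.1 hz).2 hτ0.le (by positivity)
      refine hle.trans ?_
      rw [← Nat.cast_mul, ← Nat.cast_mul, Nat.cast_le, repR, repR, repR, ← card_product,
        ← card_product]
      refine card_le_card_of_injOn
        (fun q => (q.1.1.1, q.1.1.2⁻¹ * q.1.2.1, q.1.2.2⁻¹ * q.2.1, q.2.2⁻¹)) (fun q hq => ?_) ?_
      · simp only [mem_coe, mem_product, mem_filter] at hq
        obtain ⟨⟨⟨⟨h1, h2⟩, e1⟩, ⟨h3, h4⟩, e2⟩, ⟨h5, h6⟩, e3⟩ := hq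
        have e : q.1.1.1 * (q.1.1.2⁻¹ * q.1.2.1) * (q.1.2.2⁻¹ * q.2.1) * q.2.2⁻¹ = u * v * z := by
          rw [← e1, ← e2, ← e3]; group
        rw [mem_coe, mem_filter, mem_filter]
        exact ⟨⟨mem_product.2 ⟨h1, mem_product.2 ⟨mul_mem_mul (inv_mem_inv h2) h3, mem_product.2
          ⟨mul_mem_mul (inv_mem_inv h4) h5, inv_mem_inv h6⟩⟩⟩, by
            rw [show f _ = _ from e]; exact hd⟩,
          e⟩
      · rintro ⟨⟨⟨a, b⟩, c, d⟩, r, s⟩ hq ⟨⟨⟨a', b'⟩, c', d'⟩, r', s'⟩ hq' h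
        simp only [Prod.mk.injEq, inv_inj] at h
        simp only [mem_coe, mem_product, mem_filter] at hq hq'
        obtain ⟨rfl, h2, h3, rfl⟩ := h
        obtain rfl : b = b' := inv_injective (mul_left_cancel (hq.1.1.2.trans hq'.1.1.2.symm))
        obtain rfl := mul_left_cancel h2
        obtain rfl : d = d' := inv_injective (mul_left_cancel (hq.1.2.2.trans hq'.1.2.2.symm))
        obtain rfl := mul_left_cancel h3
        rfl
    rw [← nsmul_eq_mul]
    refine (card_nsmul_le_sum _ _ _ hfib).trans ?_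
    rw [← Nat.cast_sum, ← card_eq_sum_card_fiberwise (f := f) (s := Z.filter fun t => f t ∈ D ^ 3)
      (t := D ^ 3) fun t ht => (mem_filter.1 ht).2]
    refine (Nat.cast_le.2 (card_filter_le _ _)).trans ?_
    simp only [Z, card_product, card_inv, Nat.cast_mul]
    calc (#B : ℝ) * (#(B⁻¹ * B) * (#(B⁻¹ * B) * #B)) ≤ m * ((T * m) * ((T * m) * m)) := by
          rw [← hm]; gcongr
      _ = _ := by ring
  refine ⟨D, hone, hsymm, ?_, ?_, ?_⟩
  · refine le_of_mul_le_mul_right ((hDle.trans hDsum).trans (le_of_eq ?_)) hτ0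
    rw [hτ]
    field_simp
  · refine le_of_mul_le_mul_right (h3.trans ?_) (pow_pos hτ0 3)
    calc m ^ 2 * (T * m) ^ 2 = 16 * T ^ 6 * (m / (2 * T)) * (m / (2 * T)) ^ 3 := by field_simp; ring
      _ ≤ 16 * T ^ 6 * #D * τ ^ 3 := by rw [hτ]; gcongr
  · obtain ⟨b, -, hb⟩ : ∃ b ∈ B, m / (2 * T) ≤ (#(B.filter fun a => a * b⁻¹ ∈ D) : ℝ) := by
      refine exists_le_of_sum_le hB ?_
      rw [sum_const, nsmul_eq_mul, ← hm]
      refine le_trans (le_of_eq (by ring)) (hpop.trans ?_)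
      rw [← Nat.cast_sum, ← Nat.cast_sum, Nat.cast_le]
      calc ∑ x ∈ D, repR B x = #((B ×ˢ B).filter fun q => q.1 * q.2⁻¹ ∈ D) := by
            refine ((card_eq_sum_card_fiberwise (s := (B ×ˢ B).filter fun q => q.1 * q.2⁻¹ ∈ D)
              (f := fun q : G × G => q.1 * q.2⁻¹) (t := D)
              fun q hq => (mem_filter.1 hq).2).trans ?_).symm
            refine sum_congr rfl fun x hx => congrArg _ ?_
            ext q
            simp only [mem_filter]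
            exact ⟨fun hq => ⟨hq.1.1, hq.2⟩, fun hq => ⟨⟨hq.1, hq.2 ▸ hx⟩, hq.2⟩⟩
        _ ≤ ∑ y ∈ B, #(B.filter fun a => a * y⁻¹ ∈ D) := by
            refine le_of_eq ?_
            simp only [card_filter]
            rw [sum_product, sum_comm]
    exact ⟨b, by rw [div_le_iff₀ (by positivity)] at hb; linarith⟩

end FA.BourgainGamburd

end
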