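import Fermat.Agent.BourgainGamburd.FreeLemmas
import Mathlib.Analysis.Real.Sqrt
import Mathlib.Data.Finset.Card
import Mathlib.Data.List.FinRange
import Mathlib.Data.Set.Finite.List
import Mathlib.Order.Interval.Finset.Nat

/-!
# The random walk on the images of a free pair

In the free group the walk is at each point at most `(7 / 8) ^ l`.  For logarithmic length this
passes to `SL₂ (𝔽_p)`, and there a proper subgroup only sees commuting elements.
-/

set_option autoImplicit false

noncomputable section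

namespace FA.BourgainGamburd

open Finset
open scoped Classical

/-- The four letters. -/
abbrev Letter := Fin 2 × Bool

variable {G : Type*} [Group G]

/-- The probability that the walk of length `l` with steps `s` satisfies `P`. -/
def prob (s : Letter → G) : ℕ → (G → Prop) → ℝ
  | 0, P => if P 1 then 1 else 0
  | l + 1, P => (∑ c, prob s l fun x => P (s c * x)) / 4

theorem prob_nonneg (s : Letter → G) : ∀ (l : ℕ) (P : G → Prop), 0 ≤ prob s l P
  | 0, P => by simp only [prob]; split_ifs <;> norm_num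
  | l + 1, P => by
    simp only [prob]
    exact div_nonneg (Finset.sum_nonneg fun c _ => prob_nonneg s l _) (by norm_num)

theorem prob_true (s : Letter → G) (l : ℕ) : prob s l (fun _ => True) = 1 := by
  induction l with
  | zero => simp [prob]
  | succ l ih => simp only [prob, ih]; simp

theorem prob_comp {G' : Type*} [Group G'] (φ : G →* G') (s : Letter → G) :
    ∀ (l : ℕ) (P : G' → Prop), prob (φ ∘ s) l P = prob s l fun x => P (φ x)
  | 0, P => by simp [prob]
  | l + 1, P => by
    simp only [prob]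
    congr 1
    refine sum_congr rfl fun c _ => ?_
    rw [prob_comp φ s l]
    simp

theorem prob_mono (s : Letter → G) {B : ℕ → G → Prop} (h0 : B 0 1)
    (hB : ∀ l x c, B l x → B (l + 1) (s c * x)) :
    ∀ (l : ℕ) (P Q : G → Prop), (∀ x, B l x → P x → Q x) → prob s l P ≤ prob s l Q
  | 0, P, Q, h => by
    simp only [prob]
    split_ifs with h1 h2 <;> norm_num
    exact absurd (h 1 h0 h1) h2
  | l + 1, P, Q, h => by
    simp only [prob]
    gcongr with c
    exact prob_mono s h0 hB l _ _ fun x hx => h _ (hB l x c hx)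

theorem prob_mem (s : Letter → G) : ∀ (l : ℕ) (C : Finset G),
    prob s l (· ∈ C) = ∑ x ∈ C, prob s l (· = x)
  | 0, C => by simp [prob]
  | l + 1, C => by
    simp only [prob]
    rw [← sum_div, sum_comm]
    congr 1
    refine sum_congr rfl fun c _ => ?_
    have e : (fun x => s c * x ∈ C) = (· ∈ C.image ((s c)⁻¹ * ·)) := by
      funext x
      simp
    rw [e, prob_mem s l, sum_image fun a _ b _ h => mul_left_cancel h]
    refine sum_congr rfl fun x _ => ?_
    congr 1
    funext y
    exact propext eq_inv_mul_iff_mul_eq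

variable [Fintype G]

/-- The walk on a finite group. -/
def walk (s : Letter → G) (l : ℕ) (z : G) : ℝ := prob s l (· = z)

omit [Fintype G] in
theorem walk_succ (s : Letter → G) (l : ℕ) (z : G) :
    walk s (l + 1) z = (∑ c, walk s l ((s c)⁻¹ * z)) / 4 := by
  simp only [walk, prob]
  congr 1
  refine sum_congr rfl fun c _ => ?_
  congr 1
  funext y
  exact propext eq_inv_mul_iff_mul_eq.symm

omit [Fintype G] in
theorem walk_nonneg (s : Letter → G) (l : ℕ) (z : G) : 0 ≤ walk s l z := prob_nonneg s l _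

theorem prob_eq_sum (s : Letter → G) (l : ℕ) (P : G → Prop) :
    prob s l P = ∑ x ∈ univ.filter P, walk s l x := by
  simp only [walk]
  rw [← prob_mem]
  congr 1
  funext x
  simp

theorem sum_walk (s : Letter → G) (l : ℕ) : ∑ z, walk s l z = 1 := by
  rw [← prob_true s l, prob_eq_sum]
  simp

theorem walk_add (s : Letter → G) (l m : ℕ) :
    ∀ z, walk s (l + m) z = ∑ y, walk s l y * walk s m (y⁻¹ * z) := by
  induction l with
  | zero =>
    intro z
    simp [walk, prob]
  | succ l ih =>
    intro z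
    rw [Nat.add_right_comm, walk_succ]
    simp only [ih]
    simp only [walk_succ, div_mul_eq_mul_div, ← sum_div, sum_mul]
    congr 1
    conv_rhs => rw [sum_comm]
    refine sum_congr rfl fun c _ => ?_
    exact Fintype.sum_equiv (Equiv.mulLeft (s c)) _ _ fun y => by simp [mul_assoc]

omit [Fintype G] in
theorem walk_one (s : Letter → G) (z : G) :
    walk s 1 z = (∑ c, if s c = z then (1 : ℝ) else 0) / 4 := by
  simp [walk, prob]

/-- The inverse letter. -/
def invLetter (c : Letter) : Letter := (c.1, !c.2)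

theorem walk_inv {s : Letter → G} (hs : ∀ c, s (invLetter c) = (s c)⁻¹) (l : ℕ) :
    ∀ z, walk s l z⁻¹ = walk s l z := by
  induction l with
  | zero =>
    intro z
    simp only [walk, prob, eq_comm (a := (1 : G)), inv_eq_one]
  | succ l ih =>
    intro z
    have h1 : ∀ y, walk s 1 y⁻¹ = walk s 1 y := fun y => by
      rw [walk_one, walk_one]
      congr 1
      refine Fintype.sum_equiv
        (Function.Involutive.toPerm invLetter fun c => by simp [invLetter]) _ _ fun c => ?_
      simp only [Function.Involutive.coe_toPerm, hs, inv_eq_iff_eq_inv]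
    have e1 : walk s (l + 1) z⁻¹ = ∑ y, walk s 1 y * walk s l (y⁻¹ * z⁻¹) := by
      rw [add_comm, walk_add]
    rw [e1, walk_add s l 1]
    refine Fintype.sum_equiv (Equiv.mulLeft z) _ _ fun y => ?_
    simp only [Equiv.coe_mulLeft, mul_inv_rev, mul_assoc, inv_mul_cancel, mul_one, h1]
    rw [mul_comm, ← mul_inv_rev, ih]

/-- The mass of a coset squared is at most the mass of the subgroup at twice the length. -/
theorem coset_sq_le {s : Letter → G} (hs : ∀ c, s (invLetter c) = (s c)⁻¹) (l : ℕ)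
    (H : Subgroup G) (g : G) :
    prob s l (fun x => g⁻¹ * x ∈ H) ^ 2 ≤ prob s (l + l) (· ∈ H) := by
  set ν := walk s l with hν
  have hsym : ∀ y, ν y⁻¹ = ν y := walk_inv hs l
  rw [prob_eq_sum, prob_eq_sum, sq]
  simp only [walk_add, ← hν]
  rw [sum_comm, sum_mul_sum]
  calc ∑ a ∈ univ.filter (fun x => g⁻¹ * x ∈ H),
        ∑ b ∈ univ.filter (fun x => g⁻¹ * x ∈ H), ν a * ν b
      = ∑ a ∈ univ.filter (fun x => g⁻¹ * x⁻¹ ∈ H),
          ∑ b ∈ univ.filter (fun x => g⁻¹ * x ∈ H), ν a * ν b := by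
        refine sum_nbij' (·⁻¹) (·⁻¹) (by simp) (by simp) (by simp) (by simp) fun a _ => ?_
        simp [hsym]
    _ = ∑ a ∈ univ.filter (fun x => g⁻¹ * x⁻¹ ∈ H),
          ∑ z ∈ univ.filter (· ∈ H), ν a * ν (a⁻¹ * z) := by
        refine sum_congr rfl fun a ha => ?_
        simp only [mem_filter, mem_univ, true_and] at ha
        refine sum_nbij' (a * ·) (a⁻¹ * ·) (fun b hb => ?_) (fun z hz => ?_) (by simp) (by simp)
          (by simp)
        · simp only [mem_filter, mem_univ, true_and] at hb ⊢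
          have e : a * b = (g⁻¹ * a⁻¹)⁻¹ * (g⁻¹ * b) := by group
          rw [e]
          exact H.mul_mem (H.inv_mem ha) hb
        · simp only [mem_filter, mem_univ, true_and] at hz ⊢
          rw [← mul_assoc]
          exact H.mul_mem ha hz
    _ ≤ _ := sum_le_sum_of_subset_of_nonneg (filter_subset _ _) fun a _ _ =>
        sum_nonneg fun z _ => mul_nonneg (walk_nonneg s l _) (walk_nonneg s l _)

/-- The mass of cosets does not increase with the length. -/
theorem coset_le_of_le (s : Letter → G) {l : ℕ} {H : Subgroup G} {δ : ℝ}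
    (h : ∀ g, prob s l (fun x => g⁻¹ * x ∈ H) ≤ δ) {L : ℕ} (hL : l ≤ L) (g : G) :
    prob s L (fun x => g⁻¹ * x ∈ H) ≤ δ := by
  obtain ⟨m, rfl⟩ := Nat.exists_eq_add_of_le hL
  rw [add_comm, prob_eq_sum]
  simp only [walk_add]
  rw [sum_comm]
  calc ∑ y, ∑ z ∈ univ.filter (fun x => g⁻¹ * x ∈ H), walk s m y * walk s l (y⁻¹ * z)
      ≤ ∑ y, walk s m y * δ := sum_le_sum fun y _ => by
        rw [← mul_sum]
        refine mul_le_mul_of_nonneg_left (le_trans (le_of_eq ?_) (h (y⁻¹ * g))) (walk_nonneg s m y)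
        rw [prob_eq_sum]
        refine sum_nbij' (y⁻¹ * ·) (y * ·) (fun z hz => ?_) (fun z hz => ?_) (by simp) (by simp)
          (by simp)
        · simp only [mem_filter, mem_univ, true_and] at hz ⊢
          rwa [mul_inv_rev, inv_inv, mul_assoc, mul_inv_cancel_left]
        · simp only [mem_filter, mem_univ, true_and] at hz ⊢
          rwa [mul_inv_rev, inv_inv, mul_assoc] at hz
    _ = δ := by rw [← sum_mul, sum_walk, one_mul]

/-- The generators of the free group and their inverses. -/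
def letter (c : Letter) : FreeGroup (Fin 2) := FreeGroup.mk [c]

theorem letter_inv (c : Letter) : letter (invLetter c) = (letter c)⁻¹ := by
  rw [letter, letter, FreeGroup.inv_mk]
  rfl

theorem toWord_letter_mul (c : Letter) (x : FreeGroup (Fin 2)) :
    (letter c * x).toWord = FreeGroup.reduce (c :: x.toWord) := by
  rw [letter, FreeGroup.toWord_mul, FreeGroup.toWord_mk, FreeGroup.reduce_singleton,
    List.singleton_append]

theorem sum_letter_le (x : FreeGroup (Fin 2)) :
    ∑ c, (1 / 2 : ℝ) ^ (letter c * x).toWord.length ≤ 7 / 2 * (1 / 2) ^ x.toWord.length := by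
  simp only [toWord_letter_mul, FreeGroup.reduce.cons, FreeGroup.reduce_toWord]
  rcases hL : x.toWord with _ | ⟨⟨a, b⟩, L⟩
  · simp
    norm_num
  · fin_cases a <;> cases b <;>
      simp [Fintype.sum_prod_type, Fin.sum_univ_two, pow_succ] <;> linarith

/-- **The walk in the free group is exponentially small.** -/
theorem free_walk_le (l : ℕ) :
    ∀ x, prob letter l (· = x) ≤ (7 / 8) ^ l * (1 / 2) ^ x.toWord.length := by
  induction l with
  | zero =>
    intro x
    simp only [prob]
    split_ifs with h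
    · subst h; simp
    · positivity
  | succ l ih =>
    intro x
    simp only [prob]
    have e : ∀ c, (fun y => letter c * y = x) = (· = (letter c)⁻¹ * x) := fun c => by
      funext y
      exact propext eq_inv_mul_iff_mul_eq.symm
    simp only [e]
    calc (∑ c, prob letter l (· = (letter c)⁻¹ * x)) / 4
        ≤ (∑ c, (7 / 8) ^ l * (1 / 2) ^ ((letter c)⁻¹ * x).toWord.length) / 4 := by
          gcongr with c
          exact ih _
      _ = (7 / 8) ^ l * (∑ c, (1 / 2) ^ (letter c * x).toWord.length) / 4 := by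
          rw [mul_sum]
          congr 1
          refine Fintype.sum_equiv
            (Function.Involutive.toPerm invLetter fun c => by simp [invLetter]) _ _ fun c => ?_
          simp [letter_inv]
      _ ≤ (7 / 8) ^ l * (7 / 2 * (1 / 2) ^ x.toWord.length) / 4 := by
          gcongr
          exact sum_letter_le x
      _ = _ := by ring

open FA.StrongApprox Matrix
open scoped commutatorElement

/-- The entries of images of short words are small. -/
theorem entry_le (φ : FreeGroup (Fin 2) →* SL2 ℤ) {K : ℕ}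
    (hK : ∀ c i j, 2 * ((φ (letter c)).1 i j).natAbs ≤ K) (hK1 : 1 ≤ K) :
    ∀ (L : List Letter) (i j), ((φ (FreeGroup.mk L)).1 i j).natAbs ≤ K ^ L.length
  | [], i, j => by
    rw [← FreeGroup.one_eq_mk, map_one]
    by_cases h : i = j <;> simp [h]
  | c :: L, i, j => by
    have e : FreeGroup.mk (c :: L) = letter c * FreeGroup.mk L := by
      rw [letter, FreeGroup.mul_mk]
      rfl
    rw [e, map_mul, SpecialLinearGroup.coe_mul, Matrix.mul_apply, Fin.sum_univ_two]
    refine (Int.natAbs_add_le _ _).trans ?_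
    rw [Int.natAbs_mul, Int.natAbs_mul, List.length_cons, pow_succ']
    have h1 := entry_le φ hK hK1 L 0 j
    have h2 := entry_le φ hK hK1 L 1 j
    have h3 := Nat.mul_le_mul (hK c i 0) h1
    have h4 := Nat.mul_le_mul (hK c i 1) h2
    rw [mul_assoc] at h3 h4
    omega

variable {p : ℕ}

/-- Short words with the same reduction are equal. -/
theorem eq_of_red_eq {φ : FreeGroup (Fin 2) →* SL2 ℤ} (hφ : Function.Injective φ) {K : ℕ}
    (hK : ∀ c i j, 2 * ((φ (letter c)).1 i j).natAbs ≤ K) (hK1 : 1 ≤ K) {n : ℕ}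
    (hp : 2 * K ^ n < p) {x y : FreeGroup (Fin 2)} (hx : x.toWord.length ≤ n)
    (hy : y.toWord.length ≤ n) (h : red p (φ x) = red p (φ y)) : x = y := by
  refine hφ (Subtype.ext (Matrix.ext fun i j => ?_))
  have hb : ∀ z : FreeGroup (Fin 2), z.toWord.length ≤ n → ((φ z).1 i j).natAbs ≤ K ^ n :=
    fun z hz => by
      have := entry_le φ hK hK1 z.toWord i j
      rw [FreeGroup.mk_toWord] at this
      exact this.trans (Nat.pow_le_pow_right hK1 hz)
  have e : (((φ x).1 i j : ℤ) : ZMod p) = (((φ y).1 i j : ℤ) : ZMod p) :=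
    congrFun (congrFun (congrArg Subtype.val h) i) j
  rw [ZMod.intCast_eq_intCast_iff_dvd_sub, Int.natCast_dvd] at e
  by_contra hne
  have hpos : 0 < ((φ y).1 i j - (φ x).1 i j).natAbs :=
    Int.natAbs_pos.2 (sub_ne_zero.2 fun h' => hne h'.symm)
  have := Nat.le_of_dvd hpos e
  have := Int.natAbs_sub_le ((φ y).1 i j) ((φ x).1 i j)
  have := hb x hx
  have := hb y hy
  omega

theorem length_word_le (a b : FreeGroup (Fin 2)) {A : ℕ} (ha : a.norm ≤ A) (hb : b.norm ≤ A) :
    (word a b).norm ≤ 16 * A := by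
  have hc : ∀ u v : FreeGroup (Fin 2), ⁅u, v⁆.norm ≤ 2 * u.norm + 2 * v.norm := fun u v => by
    rw [commutatorElement_def]
    have h1 := FreeGroup.norm_mul_le (u * v * u⁻¹) v⁻¹
    have h2 := FreeGroup.norm_mul_le (u * v) u⁻¹
    have h3 := FreeGroup.norm_mul_le u v
    rw [FreeGroup.norm_inv_eq] at h1 h2
    omega
  have h1 := hc ⁅a, b⁆ ⁅a, b⁻¹⁆
  have h2 := hc a b
  have h3 := hc a b⁻¹
  rw [FreeGroup.norm_inv_eq] at h3
  rw [word]
  omega

theorem norm_pow_le (a : FreeGroup (Fin 2)) : ∀ n : ℕ, (a ^ n).norm ≤ n * a.norm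
  | 0 => by simp
  | n + 1 => by
    rw [pow_succ, Nat.succ_mul]
    exact (FreeGroup.norm_mul_le _ _).trans (Nat.add_le_add_right (norm_pow_le a n) _)

variable [hp : Fact p.Prime]

/-- The steps modulo `p`. -/
def stepMod (φ : FreeGroup (Fin 2) →* SL2 ℤ) (p : ℕ) : Letter → SL2 (ZMod p) :=
  ((red p).comp φ) ∘ letter

omit hp in
theorem stepMod_inv (φ : FreeGroup (Fin 2) →* SL2 ℤ) (c : Letter) :
    stepMod φ p (invLetter c) = (stepMod φ p c)⁻¹ := by
  simp [stepMod, letter_inv]

/-- **Proper subgroups have small mass.** -/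
theorem prob_subgroup_le {φ : FreeGroup (Fin 2) →* SL2 ℤ} (hφ : Function.Injective φ) {K : ℕ}
    (hK : ∀ c i j, 2 * ((φ (letter c)).1 i j).natAbs ≤ K) (hK1 : 1 ≤ K) (hp5 : 5 ≤ p) {l : ℕ}
    (hl : 2 * K ^ (3840 * l) < p) {H : Subgroup (SL2 (ZMod p))} (hH : H ≠ ⊤) :
    prob (stepMod φ p) (l + l) (· ∈ H) ≤ (4 * l + 1) * (7 / 8) ^ (l + l) := by
  rw [stepMod, prob_comp]
  have hfin : {x : FreeGroup (Fin 2) | x.toWord.length ≤ l + l}.Finite :=
    ((List.finite_length_le Letter (l + l)).preimage FreeGroup.toWord_injective.injOn).subset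
      fun x hx => hx
  set C := hfin.toFinset.filter fun x => red p (φ x) ∈ H
  have hball : ∀ (n : ℕ) (x : FreeGroup (Fin 2)) (c : Letter), x.toWord.length ≤ n →
      (letter c * x).toWord.length ≤ n + 1 := fun n x c hx => by
    have := FreeGroup.norm_mul_le (letter c) x
    have hc : (letter c).norm ≤ 1 := FreeGroup.norm_mk_le
    show (letter c * x).norm ≤ n + 1
    have : x.norm ≤ n := hx
    omega
  calc prob letter (l + l) (fun x => (red p).comp φ x ∈ H)
      ≤ prob letter (l + l) (· ∈ C) := prob_mono (B := fun n x => x.toWord.length ≤ n) letter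
        (by simp) hball _ _ _ fun x hx hxH => mem_filter.2 ⟨hfin.mem_toFinset.2 hx, hxH⟩
    _ = ∑ x ∈ C, prob letter (l + l) (· = x) := prob_mem _ _ _
    _ ≤ ∑ x ∈ C, (7 / 8) ^ (l + l) := sum_le_sum fun x _ => (free_walk_le _ x).trans
        (mul_le_of_le_one_right (by positivity) (pow_le_one₀ (by norm_num) (by norm_num)))
    _ = #C * (7 / 8) ^ (l + l) := by rw [sum_const, nsmul_eq_mul]
    _ ≤ _ := by
      gcongr
      have hcomm : ∀ x ∈ C, ∀ y ∈ C, Commute x y := by
        intro x hx y hy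
        obtain ⟨hx1, hx2⟩ := mem_filter.1 hx
        obtain ⟨hy1, hy2⟩ := mem_filter.1 hy
        rw [Set.Finite.mem_toFinset] at hx1 hy1
        have hw := word_eq_one hp5 hH hx2 hy2
        rw [← map_pow, ← map_pow, ← map_pow, ← map_pow, ← map_word, ← map_word] at hw
        have hlen : ∀ z : FreeGroup (Fin 2), z.toWord.length ≤ l + l → (z ^ 120).norm ≤ 240 * l :=
          fun z hz => by
            have := norm_pow_le z 120
            have : z.norm ≤ l + l := hz
            omega
        have h1 : word (x ^ 120) (y ^ 120) = 1 := by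
          refine eq_of_red_eq hφ hK hK1 hl ?_ (by simp) (by rw [hw, map_one, map_one])
          have := length_word_le _ _ (hlen x hx1) (hlen y hy1)
          show (word (x ^ 120) (y ^ 120)).norm ≤ _
          omega
        have h2 := commute_of_pow (n := 120) (by norm_num) (commute_of_word_eq_one h1)
        exact (commute_of_pow (n := 120) (by norm_num) h2.symm).symm
      have := card_commuting_le (C := C) (n := l + l)
        (fun x hx => hfin.mem_toFinset.1 (mem_filter.1 hx).1) hcomm
      exact_mod_cast (by omega : #C ≤ 4 * l + 1)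

/-- **Non-concentration on cosets of proper subgroups.** -/
theorem nonconcentration {φ : FreeGroup (Fin 2) →* SL2 ℤ} (hφ : Function.Injective φ) :
    ∃ a N : ℕ, 0 < a ∧ ∀ (p : ℕ) [Fact p.Prime], N < p → ∃ l ≤ Nat.log 2 p,
      ∀ L, l ≤ L → ∀ H : Subgroup (SL2 (ZMod p)), H ≠ ⊤ → ∀ g,
        prob (stepMod φ p) L (fun x => g⁻¹ * x ∈ H) ^ a ≤ 1 / p := by
  obtain ⟨K, hK2, hK⟩ : ∃ K, 2 ≤ K ∧ ∀ c i j, 2 * ((φ (letter c)).1 i j).natAbs ≤ K := by
    refine ⟨2 + ∑ c, ∑ i, ∑ j, 2 * ((φ (letter c)).1 i j).natAbs, Nat.le_add_right _ _,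
      fun c i j => ?_⟩
    refine le_trans ?_ (Nat.le_add_left _ _)
    refine le_trans ?_ (single_le_sum (fun _ _ => Nat.zero_le _) (mem_univ c))
    refine le_trans ?_ (single_le_sum (fun _ _ => Nat.zero_le _) (mem_univ i))
    exact single_le_sum (f := fun j => 2 * ((φ (letter c)).1 i j).natAbs) (fun _ _ => Nat.zero_le _)
      (mem_univ j)
  generalize hF : 3840 = F
  obtain ⟨m, hm⟩ : ∃ m : ℕ, (K : ℝ) ^ (2 * F) ≤ (8 / 7) ^ m :=
    (pow_unbounded_of_one_lt _ (by norm_num)).imp fun _ h => h.le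
  have hK0 : (1 : ℝ) < K := by exact_mod_cast hK2
  obtain ⟨l₀, hl₀⟩ : ∃ l₀ : ℕ, (33 : ℝ) ^ (m + 1) * K ^ (2 * F) ≤ K ^ l₀ :=
    (pow_unbounded_of_one_lt _ hK0).imp fun _ h => h.le
  refine ⟨2 * (m + 1), K ^ (F * (l₀ + 2) + 2), by omega, fun p _ hNp => ?_⟩
  have hpp : 1 < p := (Fact.out : p.Prime).one_lt
  set k := Nat.log K p
  set l := (k - 2) / F
  have hk : F * (l₀ + 2) + 2 ≤ k := Nat.le_log_of_pow_le hK2 hNp.le
  have hF0 : 0 < F := by omega
  have hl_big : l₀ + 2 ≤ l := (Nat.le_div_iff_mul_le hF0).2 (by rw [mul_comm]; omega)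
  have hlk : F * l + 2 ≤ k := by
    have : F * l ≤ k - 2 := Nat.mul_div_le (k - 2) F
    omega
  refine ⟨l, (le_trans (Nat.div_le_self _ _) (Nat.sub_le _ _)).trans
    (Nat.log_anti_left one_lt_two hK2), fun L hL H hH g => ?_⟩
  have hKp : 2 * K ^ (3840 * l) < p := by
    rw [hF]
    have h1 : K ^ (F * l + 2) ≤ p :=
      (Nat.pow_le_pow_right (by omega) hlk).trans (Nat.pow_log_le_self K (by omega))
    rw [pow_add, pow_two] at h1
    have h2 : 1 ≤ K ^ (F * l) := Nat.one_le_pow _ _ (by omega)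
    have h3 : K ^ (F * l) * 4 ≤ K ^ (F * l) * (K * K) :=
      Nat.mul_le_mul_left _ (Nat.mul_le_mul hK2 hK2)
    omega
  have hp5 : 5 ≤ p := by
    have h1 : K ^ 3 ≤ K ^ (F * (l₀ + 2) + 2) := Nat.pow_le_pow_right (by omega) (by
      have : 1 ≤ F * (l₀ + 2) := Nat.mul_pos hF0 (by omega)
      omega)
    have h2 : 2 ^ 3 ≤ K ^ 3 := Nat.pow_le_pow_left hK2 3
    omega
  set δ := prob (stepMod φ p) L (fun x => g⁻¹ * x ∈ H)
  have hδ : δ ^ 2 ≤ 33 * (7 / 8) ^ l := by
    have hB : ∀ g', prob (stepMod φ p) l (fun x => g'⁻¹ * x ∈ H) ≤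
        Real.sqrt (33 * (7 / 8) ^ l) := fun g' => by
      refine Real.le_sqrt_of_sq_le ((coset_sq_le (stepMod_inv φ) l H g').trans ?_)
      refine (prob_subgroup_le hφ hK (by omega) hp5 hKp hH).trans ?_
      rw [pow_add, ← mul_assoc]
      refine mul_le_mul_of_nonneg_right ?_ (by positivity)
      have h := one_add_mul_le_pow (a := (1 : ℝ) / 7) (by norm_num) l
      rw [show (1 : ℝ) + 1 / 7 = 8 / 7 by norm_num] at h
      rw [show (7 / 8 : ℝ) ^ l = ((8 / 7) ^ l)⁻¹ by rw [← inv_pow]; norm_num,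
        ← div_eq_mul_inv, div_le_iff₀ (by positivity)]
      nlinarith
    have := coset_le_of_le _ hB hL g
    calc δ ^ 2 ≤ Real.sqrt (33 * (7 / 8) ^ l) ^ 2 :=
          pow_le_pow_left₀ (prob_nonneg _ _ _) this 2
      _ = _ := Real.sq_sqrt (by positivity)
  have hp' : (p : ℝ) ≤ (K : ℝ) ^ (F * l + 2 * F + 2) := by
    have h1 : p < K ^ (k + 1) := Nat.lt_pow_succ_log_self (by omega) p
    have h2 : k + 1 ≤ F * l + 2 * F + 2 := by
      have : k - 2 < F * (l + 1) := Nat.lt_mul_div_succ (k - 2) hF0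
      rw [Nat.mul_succ] at this
      omega
    exact_mod_cast h1.le.trans (Nat.pow_le_pow_right (by omega) h2)
  rw [pow_mul, le_div_iff₀ (by exact_mod_cast (by omega : 0 < p))]
  calc (δ ^ 2) ^ (m + 1) * p ≤ (33 * (7 / 8) ^ l) ^ (m + 1) * (K : ℝ) ^ (F * l + 2 * F + 2) := by
        gcongr
    _ ≤ (33 : ℝ) ^ (m + 1) * ((K : ℝ) ^ (2 * F * l))⁻¹ * (K : ℝ) ^ (F * l + 2 * F + 2) := by
        rw [mul_pow]
        gcongr
        rw [pow_mul, ← inv_pow, ← pow_mul, mul_comm l, pow_mul]
        refine pow_le_pow_left₀ (by positivity) ?_ l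
        calc (7 / 8 : ℝ) ^ (m + 1) ≤ (7 / 8) ^ m :=
              pow_le_pow_of_le_one (by norm_num) (by norm_num) (by omega)
          _ = ((8 / 7 : ℝ) ^ m)⁻¹ := by rw [← inv_pow]; norm_num
          _ ≤ _ := inv_anti₀ (by positivity) hm
    _ ≤ 1 := by
        have hpos : (0 : ℝ) < (K : ℝ) ^ (2 * F * l) := by positivity
        rw [mul_right_comm, ← div_eq_mul_inv, div_le_one hpos]
        calc (33 : ℝ) ^ (m + 1) * (K : ℝ) ^ (F * l + 2 * F + 2)
            = (33 : ℝ) ^ (m + 1) * (K : ℝ) ^ (2 * F) * (K : ℝ) ^ (F * l + 2) := by ring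
          _ ≤ (K : ℝ) ^ l₀ * (K : ℝ) ^ (F * l + 2) := by gcongr
          _ ≤ _ := by
            rw [← pow_add]
            refine pow_le_pow_right₀ hK0.le ?_
            have : 1 * l ≤ F * l := Nat.mul_le_mul_right _ hF0
            rw [mul_assoc]
            omega

end FA.BourgainGamburd

end
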