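import Fermat.Agent.BourgainGamburd.Energy
import Fermat.Agent.BourgainGamburd.Walk
import Fermat.Agent.Helfgott.Main
import Mathlib.Analysis.SpecialFunctions.Pow.Real

/-!
# The `ℓ²` flattening lemma

A measure whose square has almost the same `ℓ²` norm is concentrated on a translate of a set of
small tripling; by Helfgott's theorem this is impossible for the walk on `SL₂ (𝔽_p)` until it is
almost uniform.
-/

set_option autoImplicit false

noncomputable section

namespace FA.BourgainGamburd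

open Finset
open scoped Pointwise Classical

variable {G : Type*} [Group G] [Fintype G]

/-- Convolution. -/
def mconv (f g : G → ℝ) (z : G) : ℝ := ∑ y, f y * g (y⁻¹ * z)

/-- Squared `ℓ²` norm. -/
def sqNorm (f : G → ℝ) : ℝ := ∑ x, f x ^ 2

omit [Group G] in
theorem sqNorm_nonneg (f : G → ℝ) : 0 ≤ sqNorm f := sum_nonneg fun _ _ => sq_nonneg _

theorem sqNorm_mconv_le_left {f : G → ℝ} (hf : ∀ x, 0 ≤ f x) (g : G → ℝ) :
    sqNorm (mconv f g) ≤ (∑ x, f x) ^ 2 * sqNorm g := by
  calc sqNorm (mconv f g) ≤ ∑ z, (∑ y, f y) * ∑ y, f y * g (y⁻¹ * z) ^ 2 := by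
        refine sum_le_sum fun z _ => sum_sq_le_sum_mul_sum_of_sq_le_mul univ (fun y _ => hf y)
          (fun y _ => mul_nonneg (hf y) (sq_nonneg _)) fun y _ => le_of_eq ?_
        ring
    _ = _ := by
        rw [← mul_sum, sum_comm, sq, mul_assoc]
        congr 1
        rw [sum_mul]
        refine sum_congr rfl fun y _ => ?_
        rw [← mul_sum, sqNorm]
        congr 1
        exact Fintype.sum_equiv (Equiv.mulLeft y⁻¹) _ _ fun z => rfl

theorem sqNorm_mconv_le_right (f : G → ℝ) {g : G → ℝ} (hg : ∀ x, 0 ≤ g x) :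
    sqNorm (mconv f g) ≤ sqNorm f * (∑ x, g x) ^ 2 := by
  have e : ∀ z, mconv f g z = ∑ y, g y * f (z * y⁻¹) := fun z => by
    rw [mconv]
    refine Fintype.sum_equiv ((Equiv.inv G).trans (Equiv.mulRight z)) _ _ fun y => ?_
    simp [mul_comm]
  calc sqNorm (mconv f g) ≤ ∑ z, (∑ y, g y) * ∑ y, g y * f (z * y⁻¹) ^ 2 := by
        refine sum_le_sum fun z _ => ?_
        rw [e]
        refine sum_sq_le_sum_mul_sum_of_sq_le_mul univ (fun y _ => hg y)
          (fun y _ => mul_nonneg (hg y) (sq_nonneg _)) fun y _ => le_of_eq ?_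
        ring
    _ = _ := by
        rw [← mul_sum, sum_comm, mul_comm (sqNorm f), sq, mul_assoc]
        congr 1
        rw [sum_mul]
        refine sum_congr rfl fun y _ => ?_
        rw [← mul_sum, sqNorm]
        congr 1
        exact Fintype.sum_equiv (Equiv.mulRight y⁻¹) _ _ fun z => rfl

/-- **Concentration on a set of small tripling.** -/
theorem flattening_structure :
    ∃ (B : ℝ) (b : ℕ), 4 ≤ B ∧ ∀ {G : Type*} [Group G] [Fintype G] [DecidableEq G] (ν : G → ℝ),
      (∀ x, 0 ≤ ν x) → (∑ x, ν x = 1) → ∀ K : ℝ, 1 ≤ K →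
      sqNorm ν ≤ K * sqNorm (mconv ν ν) →
        ∃ D : Finset G, 1 ∈ D ∧ D⁻¹ = D ∧ #D * sqNorm ν ≤ B * K ^ b ∧
          (#(D ^ 3) : ℝ) ≤ B * K ^ b * #D ∧ ∃ x, 1 ≤ B * K ^ b * ∑ y ∈ D, ν (y * x) := by
  obtain ⟨P₁, hP₁⟩ : ∃ P₁ : ℝ, P₁ = (10 * 40 ^ 7) ^ 2 := ⟨_, rfl⟩
  obtain ⟨T₁, hT₁⟩ : ∃ T₁ : ℝ, T₁ = 2 ^ 22 * P₁ ^ 10 := ⟨_, rfl⟩
  have hP₁1 : 1 ≤ P₁ := by rw [hP₁]; exact one_le_pow₀ (by norm_num)
  have hT₁1 : 1 ≤ T₁ := by
    rw [hT₁]
    exact one_le_mul_of_one_le_of_one_le (one_le_pow₀ (by norm_num)) (one_le_pow₀ hP₁1)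
  refine ⟨4 + 2 * T₁ * 40 + 16 * T₁ ^ 6 + 16 * P₁ * T₁ * (10 * 40 ^ 4) * 40, 960, ?_, ?_⟩
  · have : 0 ≤ 2 * T₁ * 40 + 16 * T₁ ^ 6 + 16 * P₁ * T₁ * (10 * 40 ^ 4) * 40 := by positivity
    linarith
  intro G _ _ _ ν h0 h1 K hK hflat
  set BB := 4 + 2 * T₁ * 40 + 16 * T₁ ^ 6 + 16 * P₁ * T₁ * (10 * 40 ^ 4) * 40 with hBB
  have hPT : 0 ≤ P₁ * T₁ := mul_nonneg (by linarith) (by linarith)
  have hT6 : 0 ≤ T₁ ^ 6 := pow_nonneg (by linarith) 6
  have hB1 : 2 * T₁ * 40 ≤ BB := by
    rw [hBB]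
    nlinarith
  have hB2 : 16 * T₁ ^ 6 ≤ BB := by
    rw [hBB]
    nlinarith
  have hB3 : 16 * P₁ * T₁ * (10 * 40 ^ 4) * 40 ≤ BB := by
    rw [hBB]
    nlinarith
  clear_value BB
  have hBpos : 0 ≤ BB := le_trans (by positivity) hB1
  have hpow : ∀ e, e ≤ 960 → K ^ e ≤ K ^ 960 := fun e he => pow_le_pow_right₀ hK he
  set M := sqNorm ν with hM
  have hM0 : 0 < M := by
    obtain ⟨x, hx⟩ : ∃ x, ν x ≠ 0 := by
      by_contra! h
      simp [h] at h1
    exact lt_of_lt_of_le (by positivity)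
      (single_le_sum (f := fun x => ν x ^ 2) (fun _ _ => sq_nonneg _) (mem_univ x))
  set c : ℝ := 40 * K with hc
  have hc1 : 1 ≤ c := by rw [hc]; linarith
  obtain ⟨S, hS⟩ : ∃ S : Finset G, S = univ.filter fun x => ν x ≤ c * M ∧ M ≤ c * ν x := ⟨_, rfl⟩
  set νl : G → ℝ := fun x => if c * M < ν x then ν x else 0
  set νs : G → ℝ := fun x => if c * ν x < M ∧ ν x ≤ c * M then ν x else 0
  set νm : G → ℝ := fun x => if x ∈ S then ν x else 0
  have hdec : ∀ x, ν x = νl x + νs x + νm x := fun x => by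
    simp only [νl, νs, νm, hS, mem_filter, mem_univ, true_and]
    by_cases a : c * M < ν x
    · simp [a, not_le.2 a]
    · by_cases b : c * ν x < M
      · simp [a, b, not_lt.1 a, not_le.2 b]
      · simp [a, b, not_lt.1 a, not_lt.1 b]
  have hl0 : ∀ x, 0 ≤ νl x := fun x => by simp only [νl]; split_ifs <;> simp [h0]
  have hs0 : ∀ x, 0 ≤ νs x := fun x => by simp only [νs]; split_ifs <;> simp [h0]
  have hm0 : ∀ x, 0 ≤ νm x := fun x => by simp only [νm]; split_ifs <;> simp [h0]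
  have hlsum : (∑ x, νl x) * c ≤ 1 := by
    refine le_of_mul_le_mul_right ?_ hM0
    rw [one_mul, mul_assoc, sum_mul, hM, sqNorm]
    refine sum_le_sum fun x _ => ?_
    simp only [νl]
    split_ifs with h
    · rw [sq]
      exact mul_le_mul_of_nonneg_left h.le (h0 x)
    · rw [zero_mul]
      positivity
  have hmsum : ∑ x, νm x ≤ 1 := h1 ▸ sum_le_sum fun x _ => by
    simp only [νm]; split_ifs <;> simp [h0]
  have hssq : sqNorm νs * c ≤ M := by
    calc sqNorm νs * c = ∑ x, νs x ^ 2 * c := sum_mul ..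
      _ ≤ ∑ x, M * ν x := sum_le_sum fun x _ => by
          simp only [νs]
          split_ifs with h
          · rw [sq, mul_assoc, mul_comm M]
            exact mul_le_mul_of_nonneg_left (by linarith [h.1]) (h0 x)
          · simp only [ne_eq, OfNat.ofNat_ne_zero, not_false_eq_true, zero_pow, zero_mul]
            exact mul_nonneg hM0.le (h0 x)
      _ = M := by rw [← mul_sum, h1, mul_one]
  have hmsq : sqNorm νm ≤ M := sum_le_sum fun x _ => by
    simp only [νm]; split_ifs <;> simp [sq_nonneg]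
  have hlsum0 : 0 ≤ ∑ x, νl x := sum_nonneg fun x _ => hl0 x
  have hsq1 : (∑ x, νl x) ^ 2 * c ≤ 1 := by
    nlinarith [mul_le_mul_of_nonneg_left hlsum hlsum0]
  have hbound : M ≤ 10 * K * sqNorm (mconv νm νm) := by
    have e : ∀ z, mconv ν ν z =
        mconv νl ν z + mconv νs ν z + mconv νm νl z + mconv νm νs z + mconv νm νm z := fun z => by
      simp only [mconv, ← sum_add_distrib]
      refine sum_congr rfl fun y _ => ?_
      conv_lhs => arg 1; rw [hdec y]
      rw [add_mul, add_mul, add_assoc (νl y * ν _ + νs y * ν _),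
        add_assoc (νl y * ν _ + νs y * ν _)]
      congr 1
      rw [hdec (y⁻¹ * z)]
      ring
    have h5 : sqNorm (mconv ν ν) ≤ 5 * (sqNorm (mconv νl ν) + sqNorm (mconv νs ν) +
        sqNorm (mconv νm νl) + sqNorm (mconv νm νs) + sqNorm (mconv νm νm)) := by
      simp only [sqNorm, ← sum_add_distrib, mul_sum]
      refine sum_le_sum fun z _ => ?_
      rw [e z]
      generalize mconv νl ν z = a, mconv νs ν z = b, mconv νm νl z = r, mconv νm νs z = s,
        mconv νm νm z = u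
      nlinarith [sq_nonneg (a - b), sq_nonneg (a - r), sq_nonneg (a - s), sq_nonneg (a - u),
        sq_nonneg (b - r), sq_nonneg (b - s), sq_nonneg (b - u), sq_nonneg (r - s),
        sq_nonneg (r - u), sq_nonneg (s - u)]
    have b1 : sqNorm (mconv νl ν) * c ≤ M := by
      calc sqNorm (mconv νl ν) * c ≤ (∑ x, νl x) ^ 2 * M * c :=
            mul_le_mul_of_nonneg_right (sqNorm_mconv_le_left hl0 ν) (by linarith)
        _ = (∑ x, νl x) ^ 2 * c * M := by ring
        _ ≤ 1 * M := mul_le_mul_of_nonneg_right hsq1 hM0.le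
        _ = M := one_mul M
    have b2 : sqNorm (mconv νs ν) * c ≤ M := by
      calc sqNorm (mconv νs ν) * c ≤ sqNorm νs * (∑ x, ν x) ^ 2 * c :=
            mul_le_mul_of_nonneg_right (sqNorm_mconv_le_right νs h0) (by linarith)
        _ = sqNorm νs * c := by rw [h1]; ring
        _ ≤ M := hssq
    have b3 : sqNorm (mconv νm νl) * c ≤ M := by
      calc sqNorm (mconv νm νl) * c ≤ sqNorm νm * (∑ x, νl x) ^ 2 * c :=
            mul_le_mul_of_nonneg_right (sqNorm_mconv_le_right νm hl0) (by linarith)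
        _ = sqNorm νm * ((∑ x, νl x) ^ 2 * c) := by ring
        _ ≤ M * 1 := mul_le_mul hmsq hsq1 (by positivity) hM0.le
        _ = M := mul_one M
    have b4 : sqNorm (mconv νm νs) * c ≤ M := by
      calc sqNorm (mconv νm νs) * c ≤ (∑ x, νm x) ^ 2 * sqNorm νs * c :=
            mul_le_mul_of_nonneg_right (sqNorm_mconv_le_left hm0 νs) (by linarith)
        _ = (∑ x, νm x) ^ 2 * (sqNorm νs * c) := by ring
        _ ≤ 1 * M := mul_le_mul (pow_le_one₀ (sum_nonneg fun x _ => hm0 x) hmsum) hssq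
            (mul_nonneg (sqNorm_nonneg _) (by linarith)) zero_le_one
        _ = M := one_mul M
    have := mul_le_mul_of_nonneg_left h5 (show (0 : ℝ) ≤ K * 8 by linarith)
    rw [hc] at b1 b2 b3 b4
    nlinarith [sqNorm_nonneg (mconv νm νm)]
  clear hdec
  set E : ℝ := (energyM S : ℝ) with hE
  have hMM : sqNorm (mconv νm νm) ≤ (c * M) ^ 4 * E := by
    set r : G → ℕ := fun z => #((S ×ˢ S).filter fun q => q.1 * q.2 = z)
    have hr : ∀ z, mconv νm νm z ≤ (c * M) ^ 2 * r z := by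
      intro z
      have hb : ∀ x, νm x ≤ if x ∈ S then c * M else 0 := fun x => by
        simp only [νm]
        split_ifs with h
        · rw [hS] at h
          exact (mem_filter.1 h).2.1
        · exact le_rfl
      calc mconv νm νm z ≤ ∑ y, (if y ∈ S then c * M else 0) *
            (if y⁻¹ * z ∈ S then c * M else 0) :=
            sum_le_sum fun y _ => mul_le_mul (hb y) (hb _) (hm0 _) (by split_ifs <;> positivity)
        _ = (c * M) ^ 2 * #(S.filter fun y => y⁻¹ * z ∈ S) := by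
            simp only [ite_mul, mul_ite, mul_zero, zero_mul, ← ite_and]
            rw [← sum_filter, sum_const, nsmul_eq_mul, sq,
              show (univ.filter fun a => a⁻¹ * z ∈ S ∧ a ∈ S) =
              S.filter fun y => y⁻¹ * z ∈ S by ext; simp [and_comm]]
            ring
        _ ≤ _ := by
            gcongr
            exact card_le_card_of_injOn (fun y => (y, y⁻¹ * z)) (fun y hy => by
              simp only [mem_coe, mem_filter, mem_product] at hy ⊢
              simp [hy]) fun y _ y' _ e => congrArg Prod.fst e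
    have hsum : ∑ z, r z ^ 2 = energyM S := by
      rw [energyM, card_eq_sum_card_fiberwise
        (f := fun z : (G × G) × (G × G) => z.1.1 * z.1.2) (t := univ) fun _ _ => mem_univ _]
      refine sum_congr rfl fun x _ => ?_
      rw [sq, ← card_product]
      congr 1
      ext z
      simp only [mem_filter, mem_product]
      constructor
      · rintro ⟨⟨h1, e1⟩, h2, e2⟩
        exact ⟨⟨⟨h1, h2⟩, e1.trans e2.symm⟩, e1⟩
      · rintro ⟨⟨⟨h1, h2⟩, e⟩, e1⟩
        exact ⟨⟨h1, e1⟩, h2, e ▸ e1⟩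
    rw [hE, ← hsum, Nat.cast_sum, mul_sum]
    refine sum_le_sum fun z _ => ?_
    calc mconv νm νm z ^ 2 ≤ ((c * M) ^ 2 * r z) ^ 2 :=
          pow_le_pow_left₀ (sum_nonneg fun y _ => mul_nonneg (hm0 _) (hm0 _)) (hr z) 2
      _ = _ := by push_cast; ring
  set Q : ℝ := 10 * K * c ^ 4 with hQ
  have hE1 : 1 ≤ Q * M ^ 3 * E := by
    refine le_of_mul_le_mul_right ?_ hM0
    rw [one_mul]
    calc M ≤ 10 * K * ((c * M) ^ 4 * E) := hbound.trans (by gcongr)
      _ = _ := by rw [hQ]; ring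
  have hSup : (#S : ℝ) * M ≤ c := by
    calc (#S : ℝ) * M = ∑ _x ∈ S, M := by rw [sum_const, nsmul_eq_mul]
      _ ≤ ∑ x ∈ S, c * ν x := sum_le_sum fun x hx => by
          rw [hS] at hx
          exact (mem_filter.1 hx).2.2
      _ ≤ ∑ x, c * ν x :=
          sum_le_sum_of_subset_of_nonneg (subset_univ _)
            fun x _ _ => mul_nonneg (by linarith) (h0 x)
      _ = c := by rw [← mul_sum, h1, mul_one]
  have hEn : E ≤ (#S : ℝ) ^ 3 := by
    have h2 : energyL S ≤ #S ^ 3 := by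
      calc energyL S ≤ ∑ h ∈ S⁻¹ * S, #S * repL S h :=
            sum_le_sum fun h _ => by rw [sq]; exact Nat.mul_le_mul_right _ (repL_le S h)
        _ = #S ^ 3 := by rw [← mul_sum, sum_repL]; ring
    have h3 : energyM S ^ 2 ≤ (#S ^ 3) ^ 2 :=
      (energyM_sq_le S).trans ((Nat.mul_le_mul_left _ h2).trans_eq (sq _).symm)
    rw [hE]
    exact_mod_cast (Nat.pow_le_pow_iff_left two_ne_zero).1 h3
  have hQ1 : 1 ≤ Q := by
    rw [hQ]
    exact one_le_mul_of_one_le_of_one_le (by linarith) (one_le_pow₀ hc1)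
  have hE0 : 0 < E := by
    by_contra! h
    nlinarith [mul_nonneg (show (0 : ℝ) ≤ Q by linarith) (pow_nonneg hM0.le 3)]
  have hSlow : 1 ≤ Q * (M * #S) := by
    have h3 : 1 ≤ (Q * (M * #S)) ^ 3 := by
      calc 1 ≤ Q * M ^ 3 * E := hE1
        _ ≤ Q * M ^ 3 * (#S : ℝ) ^ 3 := by gcongr
        _ = Q * (M * #S) ^ 3 := by ring
        _ ≤ Q ^ 3 * (M * #S) ^ 3 := by gcongr; exact le_self_pow₀ hQ1 (by norm_num)
        _ = _ := by ring
    exact (one_le_pow_iff_of_nonneg (by positivity) (by norm_num)).1 h3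
  have hSne : S.Nonempty := by
    refine card_pos.1 (Nat.pos_of_ne_zero fun h => ?_)
    rw [h] at hSlow
    simp at hSlow
    linarith
  set P : ℝ := P₁ * K ^ 16 with hP
  have hP1 : 1 ≤ P := one_le_mul_of_one_le_of_one_le hP₁1 (one_le_pow₀ hK)
  have henergy : (#S : ℝ) ^ 3 ≤ P * energyL S := by
    have h4 : (#S : ℝ) ^ 3 ≤ c ^ 3 * Q * E := by
      refine le_of_mul_le_mul_right ?_ (pow_pos hM0 3)
      calc (#S : ℝ) ^ 3 * M ^ 3 = ((#S : ℝ) * M) ^ 3 := by ring
        _ ≤ c ^ 3 * (Q * M ^ 3 * E) := (pow_le_pow_left₀ (by positivity) hSup 3).trans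
            (le_mul_of_one_le_right (by positivity) hE1)
        _ = _ := by ring
    have h5 : (#S : ℝ) ^ 3 * (#S : ℝ) ^ 3 ≤ (#S : ℝ) ^ 3 * (P * energyL S) := by
      calc (#S : ℝ) ^ 3 * (#S : ℝ) ^ 3 ≤ (c ^ 3 * Q * E) * (c ^ 3 * Q * E) :=
            mul_le_mul h4 h4 (by positivity) (by positivity)
        _ = P * (E ^ 2) := by rw [hP, hP₁, hQ, hc]; ring
        _ ≤ P * ((#S : ℝ) ^ 3 * energyL S) := by
            refine mul_le_mul_of_nonneg_left ?_ (by linarith)
            rw [hE]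
            exact_mod_cast energyM_sq_le S
        _ = _ := by ring
    exact le_of_mul_le_mul_left h5 (pow_pos (Nat.cast_pos.2 hSne.card_pos) 3)
  obtain ⟨A', hA', hsize, hquot⟩ := exists_small_quotient hSne hP1 henergy
  set T : ℝ := T₁ * K ^ 160 with hT
  have hT1 : 1 ≤ T := one_le_mul_of_one_le_of_one_le hT₁1 (one_le_pow₀ hK)
  have hTeq : 2 ^ 22 * P ^ 10 = T := by rw [hT, hT₁, hP]; ring
  rw [hTeq] at hquot
  have hA'ne : A'.Nonempty := by
    refine card_pos.1 (Nat.pos_of_ne_zero fun h => ?_)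
    rw [h] at hsize
    simp at hsize
    exact hSne.card_pos.ne' (by simp [hsize])
  obtain ⟨D, hD1, hDs, hDsize, hD3, b, hb⟩ := exists_small_tripling hA'ne hT1 hquot
  refine ⟨D, hD1, hDs, ?_, ?_, b, ?_⟩
  · calc (#D : ℝ) * M ≤ 2 * T * #S * M := by
          refine mul_le_mul_of_nonneg_right (hDsize.trans ?_) hM0.le
          gcongr
      _ = 2 * T * (#S * M) := by ring
      _ ≤ 2 * T * c := by gcongr
      _ = 2 * T₁ * 40 * K ^ 161 := by rw [hT, hc]; ring
      _ ≤ BB * K ^ 960 := mul_le_mul hB1 (hpow _ (by norm_num)) (by positivity) hBpos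
  · calc (#(D ^ 3) : ℝ) ≤ 16 * T ^ 6 * #D := hD3
      _ = 16 * T₁ ^ 6 * K ^ 960 * #D := by rw [hT]; ring
      _ ≤ _ := by gcongr
  · set q : ℝ := ((A'.filter fun a => a * b⁻¹ ∈ D).card : ℝ)
    have hmass : q * M ≤ c * ∑ y ∈ D, ν (y * b) := by
      rw [mul_sum]
      calc q * M = ∑ _a ∈ A'.filter (fun a => a * b⁻¹ ∈ D), M := by rw [sum_const, nsmul_eq_mul]
        _ ≤ ∑ a ∈ A'.filter (fun a => a * b⁻¹ ∈ D), c * ν a :=
            sum_le_sum fun a ha => by
              have h := hA' (mem_filter.1 ha).1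
              rw [hS] at h
              exact (mem_filter.1 h).2.2
        _ ≤ ∑ a ∈ D.image (· * b), c * ν a := by
            refine sum_le_sum_of_subset_of_nonneg (fun a ha => ?_) fun a _ _ =>
              mul_nonneg (by linarith) (h0 a)
            exact mem_image.2 ⟨a * b⁻¹, (mem_filter.1 ha).2, by group⟩
        _ = _ := sum_image fun x _ y _ e => mul_right_cancel e
    calc (1 : ℝ) ≤ Q * (M * #S) := hSlow
      _ ≤ Q * (M * (8 * P * (2 * T * q))) := by
          refine mul_le_mul_of_nonneg_left ?_ (by linarith)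
          refine mul_le_mul_of_nonneg_left (hsize.trans ?_) hM0.le
          gcongr
      _ = 16 * P * T * Q * (q * M) := by ring
      _ ≤ 16 * P * T * Q * (c * ∑ y ∈ D, ν (y * b)) := by gcongr
      _ = 16 * P₁ * T₁ * (10 * 40 ^ 4) * 40 * K ^ 182 * ∑ y ∈ D, ν (y * b) := by
          rw [hP, hT, hQ, hc]; ring
      _ ≤ _ := mul_le_mul_of_nonneg_right
          (mul_le_mul hB3 (hpow _ (by norm_num)) (by positivity) hBpos)
          (sum_nonneg fun y _ => h0 _)

open FA.StrongApprox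

/-- **The walk becomes almost uniform in logarithmic time.** -/
theorem sqNorm_walk_le {φ : FreeGroup (Fin 2) →* SL2 ℤ} (hφ : Function.Injective φ) :
    ∃ C N : ℕ, ∀ (p : ℕ) [Fact p.Prime], N < p → ∃ L : ℕ, 0 < L ∧ L ≤ C * Nat.log 2 p ∧
      sqNorm (walk (stepMod φ p) L) ^ 2 * (p : ℝ) ^ 5 ≤ 1 := by
  obtain ⟨a, N₁, ha, hnc⟩ := nonconcentration hφ
  obtain ⟨B, b, hB, hstruct⟩ := flattening_structure.{0}
  obtain ⟨M₀, hM₀, hgrowth⟩ := Helfgott.growth
  set n := a * (M₀ + 1) + 5 with hn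
  set e := 2 * (b + 1) * n with he
  obtain ⟨N₂, hN₂⟩ : ∃ N₂ : ℕ, B ^ (2 * n) < N₂ := exists_nat_gt _
  refine ⟨2 * 2 ^ (3 * e), max (max N₁ N₂) 4, fun p _ hp => ?_⟩
  obtain ⟨l, hl, hmass⟩ := hnc p (lt_of_le_of_lt ((le_max_left _ _).trans (le_max_left _ _)) hp)
  have hpN₂ : (N₂ : ℝ) ≤ p := by
    exact_mod_cast (lt_of_le_of_lt ((le_max_right N₁ N₂).trans (le_max_left _ _)) hp).le
  have hp4 : 4 < p := lt_of_le_of_lt (le_max_right _ _) hp
  have hp0 : (0 : ℝ) < p := by exact_mod_cast (show 0 < p by omega)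
  have hlog : 1 ≤ Nat.log 2 p := Nat.log_pos one_lt_two (by omega)
  have he0 : e ≠ 0 := by rw [he]; positivity
  obtain ⟨K, hK1, hKe⟩ : ∃ K : ℝ, 1 ≤ K ∧ K ^ e = p := by
    refine ⟨(p : ℝ) ^ ((e : ℝ)⁻¹), Real.one_le_rpow (by exact_mod_cast (show 1 ≤ p by omega))
      (by positivity), ?_⟩
    rw [← Real.rpow_natCast, ← Real.rpow_mul hp0.le,
      inv_mul_cancel₀ (by exact_mod_cast he0), Real.rpow_one]
  set C := B * K ^ b with hC
  have hC4 : 4 ≤ C := hB.trans (le_mul_of_one_le_right (by linarith) (one_le_pow₀ hK1))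
  have hCn : C ^ n < p := by
    rw [hC, mul_pow, ← pow_mul]
    have h1 : B ^ n < K ^ ((b + 1) * n) := by
      refine lt_of_pow_lt_pow_left₀ 2 (by positivity) ?_
      rw [← pow_mul, ← pow_mul, mul_comm n, mul_comm ((b + 1) * n), ← mul_assoc]
      rw [← he, hKe]
      exact lt_of_lt_of_le hN₂ hpN₂
    calc B ^ n * K ^ (b * n) < K ^ ((b + 1) * n) * K ^ (b * n) :=
          mul_lt_mul_of_pos_right h1 (by positivity)
      _ ≤ K ^ e := by
          rw [← pow_add]
          exact pow_le_pow_right₀ hK1 (by rw [he]; nlinarith)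
      _ = _ := hKe
  have hCpow : ∀ i, i ≤ n → C ^ i < p := fun i hi =>
    lt_of_le_of_lt (pow_le_pow_right₀ (by linarith) hi) hCn
  set s := stepMod φ p with hsdef
  -- one step of flattening
  have hstep : ∀ L, l ≤ L → sqNorm (walk s L) ^ 2 * (p : ℝ) ^ 5 ≤ 1 ∨
      K * sqNorm (walk s (L + L)) ≤ sqNorm (walk s L) := by
    intro L hL
    by_contra! hcon
    obtain ⟨hbig, hflat⟩ := hcon
    set ν := walk s L
    have heq : mconv ν ν = walk s (L + L) := funext fun z => (walk_add s L L z).symm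
    obtain ⟨D, hD1, hDs, hDM, hD3, x, hx⟩ := hstruct ν (walk_nonneg s L) (sum_walk s L) K hK1
      (by rw [heq]; exact hflat.le)
    rw [← hC] at hDM hD3 hx
    -- cosets of proper subgroups carry little mass
    have hlight : ∀ δ : ℝ, 0 ≤ δ → δ ^ a ≤ 1 / p → ∀ i, i * a ≤ n → 1 ≤ C ^ i * δ → False := by
      intro δ hδ0 hδ i hi h1
      have : (1 : ℝ) ≤ C ^ (i * a) * δ ^ a := by
        rw [pow_mul, ← mul_pow]
        exact one_le_pow₀ h1
      have h2 := mul_le_mul_of_nonneg_left hδ (pow_nonneg (show (0 : ℝ) ≤ C by linarith) (i * a))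
      rw [mul_one_div] at h2
      have := (one_le_div hp0).1 (this.trans h2)
      linarith [hCpow _ hi]
    have hgen : Subgroup.closure (D : Set (SL2 (ZMod p))) = ⊤ := by
      by_contra hne
      set H := Subgroup.closure (D : Set (SL2 (ZMod p)))
      set H' := H.comap (MulAut.conj x).toMonoidHom
      have hH' : H' ≠ ⊤ := fun h => hne (eq_top_iff.2 fun y _ => by
        obtain ⟨w, rfl⟩ := (MulAut.conj x).surjective y
        exact Subgroup.mem_comap.1 (h ▸ Subgroup.mem_top w : w ∈ H'))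
      refine hlight _ (prob_nonneg _ _ _) (hmass L hL H' hH' x) 1
        (by rw [one_mul, hn]; nlinarith) ?_
      rw [pow_one]
      refine hx.trans (mul_le_mul_of_nonneg_left ?_ (by linarith))
      rw [prob_eq_sum]
      calc ∑ y ∈ D, ν (y * x) = ∑ z ∈ D.image (· * x), ν z :=
            (sum_image fun u _ v _ h => mul_right_cancel h).symm
        _ ≤ _ := by
            refine sum_le_sum_of_subset_of_nonneg (fun z hz => ?_) fun z _ _ => walk_nonneg s L z
            obtain ⟨y, hy, rfl⟩ := mem_image.1 hz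
            refine mem_filter.2 ⟨mem_univ _, Subgroup.mem_comap.2 ?_⟩
            show x * (x⁻¹ * (y * x)) * x⁻¹ ∈ H
            rw [mul_inv_cancel_left, mul_inv_cancel_right]
            exact Subgroup.subset_closure (mem_coe.2 hy)
    set M := sqNorm ν
    have hM0 : 0 ≤ M := sqNorm_nonneg _
    have hcard : (p : ℝ) ^ 3 ≤ 2 * Fintype.card (SL2 (ZMod p)) := by
      have h : p ^ 3 ≤ 2 * Fintype.card (SL2 (ZMod p)) :=
        le_trans (le_trans (le_of_eq (by ring : p ^ 3 = p * p * p))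
          ((Nat.mul_le_mul_left (p * p) (by omega : p ≤ 2 * (p - 1))).trans (le_of_eq (by ring))))
          (Nat.mul_le_mul_left 2 Helfgott.le_card_SL2)
      exact_mod_cast h
    rcases hgrowth p D hD1 hDs hgen with huniv | hgr
    · rw [huniv, card_univ] at hD3
      refine hbig.not_ge ?_
      have h1 : (p : ℝ) ^ 3 * M ≤ 2 * C ^ 2 := by
        calc (p : ℝ) ^ 3 * M ≤ 2 * (C * #D) * M :=
              mul_le_mul_of_nonneg_right (hcard.trans (by linarith)) hM0
          _ = 2 * C * (#D * M) := by ring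
          _ ≤ 2 * C * C := by gcongr
          _ = _ := by ring
      refine le_of_mul_le_mul_right ?_ hp0
      calc M ^ 2 * (p : ℝ) ^ 5 * p = ((p : ℝ) ^ 3 * M) ^ 2 := by ring
        _ ≤ (2 * C ^ 2) ^ 2 := pow_le_pow_left₀ (by positivity) h1 2
        _ = 4 * C ^ 4 := by ring
        _ ≤ C * C ^ 4 := by gcongr
        _ = C ^ 5 := by ring
        _ ≤ 1 * p := by rw [one_mul]; exact (hCpow 5 (by rw [hn]; omega)).le
    · have hDle : (#D : ℝ) ≤ C ^ M₀ := by
        have hDpos : (0 : ℝ) < #D := Nat.cast_pos.2 (card_pos.2 ⟨1, hD1⟩)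
        refine le_of_mul_le_mul_right ?_ (pow_pos hDpos M₀)
        calc (#D : ℝ) * (#D : ℝ) ^ M₀ = (#D : ℝ) ^ (M₀ + 1) := (pow_succ' _ _).symm
          _ ≤ (#(D ^ 3) : ℝ) ^ M₀ := by exact_mod_cast hgr
          _ ≤ (C * #D) ^ M₀ := pow_le_pow_left₀ (Nat.cast_nonneg _) hD3 _
          _ = _ := mul_pow ..
      obtain ⟨z, -, hz⟩ := exists_max_image (univ : Finset (SL2 (ZMod p))) ν univ_nonempty
      refine hlight (ν z) (walk_nonneg s L z) ?_ (M₀ + 1) (by rw [hn]; nlinarith) ?_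
      · refine le_trans ?_ (hmass L hL ⊥ ?_ z)
        · refine pow_le_pow_left₀ (walk_nonneg s L z) (le_of_eq ?_) a
          simp only [walk]
          congr 1
          funext y
          rw [Subgroup.mem_bot, inv_mul_eq_one]
          exact propext eq_comm
        · intro h
          exact Helfgott.borel_ne_top (F := ZMod p) 1 (top_le_iff.1 (h ▸ bot_le))
      · calc (1 : ℝ) ≤ C * ∑ y ∈ D, ν (y * x) := hx
          _ ≤ C * ∑ _y ∈ D, ν z := by gcongr with y hy; exact hz _ (mem_univ _)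
          _ = C * (#D * ν z) := by rw [sum_const, nsmul_eq_mul]
          _ ≤ C * (C ^ M₀ * ν z) := by
              gcongr
              exact walk_nonneg s L z
          _ = _ := by ring
  -- iteration
  set M : ℕ → ℝ := fun i => sqNorm (walk s (2 ^ i * (l + 1))) with hMdef
  have hmono : ∀ i, M (i + 1) ≤ M i := fun i => by
    have heq : mconv (walk s (2 ^ i * (l + 1))) (walk s (2 ^ i * (l + 1))) =
        walk s (2 ^ (i + 1) * (l + 1)) := by
      funext z
      rw [show 2 ^ (i + 1) * (l + 1) = 2 ^ i * (l + 1) + 2 ^ i * (l + 1) by ring, walk_add]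
      rfl
    simp only [hMdef, ← heq]
    refine (sqNorm_mconv_le_left (walk_nonneg s _) _).trans ?_
    rw [sum_walk, one_pow, one_mul]
  have hM : ∀ i, M i ^ 2 * (p : ℝ) ^ 5 ≤ 1 ∨ K ^ i * M i ≤ 1 := by
    intro i
    induction i with
    | zero =>
      refine .inr ?_
      rw [pow_zero, one_mul]
      calc M 0 ≤ ∑ x, walk s (2 ^ 0 * (l + 1)) x * 1 := sum_le_sum fun x _ => by
            rw [sq]
            refine mul_le_mul_of_nonneg_left ?_ (walk_nonneg _ _ _)
            rw [← sum_walk s (2 ^ 0 * (l + 1))]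
            exact single_le_sum (fun y _ => walk_nonneg s (2 ^ 0 * (l + 1)) y) (mem_univ x)
        _ = 1 := by simp [sum_walk]
    | succ i ih =>
      have hsucc : ∀ r : ℝ, 0 ≤ r → M i ^ 2 * r ≤ 1 → M (i + 1) ^ 2 * r ≤ 1 := fun r hr h =>
        (mul_le_mul_of_nonneg_right (pow_le_pow_left₀ (sqNorm_nonneg _) (hmono i) 2) hr).trans h
      rcases ih with ih | ih
      · exact .inl (hsucc _ (by positivity) ih)
      have hle : l ≤ 2 ^ i * (l + 1) :=
        (Nat.le_succ l).trans (Nat.le_mul_of_pos_left _ (by positivity))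
      rcases hstep _ hle with h | h
      · exact .inl (hsucc _ (by positivity) h)
      · refine .inr ?_
        rw [← two_mul, ← mul_assoc, ← pow_succ'] at h
        calc K ^ (i + 1) * M (i + 1) = K ^ i * (K * M (i + 1)) := by ring
          _ ≤ K ^ i * M i := mul_le_mul_of_nonneg_left h (by positivity)
          _ ≤ 1 := ih
  refine ⟨2 ^ (3 * e) * (l + 1), by positivity, ?_, ?_⟩
  · calc 2 ^ (3 * e) * (l + 1) ≤ 2 ^ (3 * e) * (2 * Nat.log 2 p) :=
          Nat.mul_le_mul_left _ (by omega)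
      _ = _ := by ring
  · refine (hM (3 * e)).elim id fun h => ?_
    rw [mul_comm 3 e, pow_mul, hKe] at h
    rw [mul_comm 3 e]
    have h0 : 0 ≤ M (e * 3) := sqNorm_nonneg _
    calc M (e * 3) ^ 2 * (p : ℝ) ^ 5 ≤ M (e * 3) ^ 2 * (p : ℝ) ^ 6 := by
          refine mul_le_mul_of_nonneg_left (pow_le_pow_right₀ ?_ (by norm_num)) (by positivity)
          exact_mod_cast (show 1 ≤ p by omega)
      _ = ((p : ℝ) ^ 3 * M (e * 3)) ^ 2 := by ring
      _ ≤ 1 := pow_le_one₀ (by positivity) h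

end FA.BourgainGamburd

end
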