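import Fermat.Agent.StrongApproximation.Subgroups
import Mathlib.GroupTheory.FreeGroup.CyclicallyReduced
import Mathlib.GroupTheory.FreeGroup.NielsenSchreier
import Mathlib.GroupTheory.Subgroup.Centralizer

/-!
# Commuting elements in free groups

Centralisers are cyclic, so the word of `StrongApproximation.Subgroups` vanishes only on commuting
pairs, and a ball of radius `n` contains at most `2 n + 1` pairwise commuting elements.
-/

set_option autoImplicit false

noncomputable section

namespace FA.BourgainGamburd

open FreeGroup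
open scoped commutatorElement Finset

variable {α : Type*}

/-- A free group of rank at least two has trivial centre. -/
theorem subsingleton_of_central {u : FreeGroup α} (hu : u ≠ 1) (h : ∀ g, g * u = u * g) :
    Subsingleton α := by
  classical
  obtain ⟨a, L, hL⟩ := List.exists_cons_of_ne_nil (mt toWord_eq_nil_iff.1 hu)
  have hne : u.toWord ≠ [] := by simp [hL]
  refine ⟨fun x y => by_contra fun hxy => ?_⟩
  obtain ⟨z, hz⟩ : ∃ z, z ≠ a.1 := by
    by_contra! hall
    exact hxy ((hall x).trans (hall y).symm)
  have key : ∀ b : Bool, (u.toWord.getLast hne).1 = z ∧ (u.toWord.getLast hne).2 = !b := by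
    intro b
    by_contra hcon
    have hleft : IsReduced ((z, b) :: u.toWord) := by
      rw [hL, isReduced_cons_cons]
      exact ⟨fun e => absurd e hz, hL ▸ isReduced_toWord⟩
    have hright : IsReduced (u.toWord ++ [(z, b)]) := by
      refine List.IsChain.append isReduced_toWord (List.isChain_singleton _) ?_
      intro c hc d hd
      simp only [List.head?_cons, Option.mem_def, Option.some.injEq] at hd
      subst hd
      rw [Option.mem_def, List.getLast?_eq_some_getLast hne, Option.some.injEq] at hc
      subst hc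
      intro e
      rcases Bool.eq_or_eq_not (u.toWord.getLast hne).2 b with h2 | h2
      · exact h2
      · exact absurd ⟨e, h2⟩ hcon
    have e := congrArg toWord (h (mk [(z, b)]))
    rw [toWord_mul, toWord_mul, toWord_mk, reduce_singleton, List.singleton_append,
      hleft.reduce_eq, hright.reduce_eq, hL] at e
    exact hz (congrArg Prod.fst (List.cons.inj (e.trans (List.cons_append ..))).1)
  have := (key true).2.symm.trans (key false).2
  simp at this

/-- A free group with non-trivial centre is commutative. -/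
theorem commute_of_central {G : Type*} [Group G] [IsFreeGroup G] {u : G} (hu : u ≠ 1)
    (h : ∀ g, g * u = u * g) (x y : G) : x * y = y * x := by
  set e := IsFreeGroup.toFreeGroup G
  have := subsingleton_of_central (u := e u) (fun he => hu (e.injective (by simpa using he)))
    fun g => by
      obtain ⟨g, rfl⟩ := e.surjective g
      rw [← _root_.map_mul, ← _root_.map_mul, h g]
  have key : ∀ a b : FreeGroup (IsFreeGroup.Generators G), a * b = b * a := by
    rcases isEmpty_or_nonempty (IsFreeGroup.Generators G) with hX | ⟨⟨i⟩⟩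
    · exact fun a b => Subsingleton.elim _ _
    · have : Subgroup.closure {FreeGroup.of i} = ⊤ := by
        rw [← FreeGroup.closure_range_of]
        congr 1
        ext g
        simp only [Set.mem_singleton_iff, Set.mem_range]
        exact ⟨fun hg => ⟨i, hg.symm⟩, fun ⟨j, hj⟩ => by rw [← hj, Subsingleton.elim j i]⟩
      intro a b
      obtain ⟨m, rfl⟩ := Subgroup.mem_closure_singleton.1 (this ▸ Subgroup.mem_top a)
      obtain ⟨k, rfl⟩ := Subgroup.mem_closure_singleton.1 (this ▸ Subgroup.mem_top b)
      rw [← _root_.zpow_add, ← _root_.zpow_add, add_comm]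
  exact e.injective (by rw [_root_.map_mul, _root_.map_mul, key])

/-- **Commutation is transitive.** -/
theorem commute_trans {u x y : FreeGroup α} (hu : u ≠ 1) (hx : Commute u x) (hy : Commute u y) :
    Commute x y := by
  set H := Subgroup.centralizer {u}
  have mem : ∀ {z}, Commute u z → z ∈ H := fun {z} hz =>
    Subgroup.mem_centralizer_singleton_iff.2 hz.eq.symm
  exact congrArg Subtype.val (commute_of_central (u := (⟨u, mem (Commute.refl u)⟩ : H))
    (fun h => hu (congrArg Subtype.val h))
    (fun g => Subtype.ext (Subgroup.mem_centralizer_singleton_iff.1 g.2))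
    (⟨x, mem hx⟩ : H) ⟨y, mem hy⟩)

/-- Roots of commuting elements commute. -/
theorem commute_of_pow {G : Type*} [Group G] [IsMulTorsionFree G] {x y : G} {n : ℕ} (hn : n ≠ 0)
    (h : Commute (x ^ n) y) : Commute x y := by
  have e : (y⁻¹ * x * y) ^ n = x ^ n := by
    rw [show y⁻¹ * x * y = MulAut.conj y⁻¹ x by simp, ← _root_.map_pow, MulAut.conj_apply, inv_inv,
      mul_assoc, h.eq, inv_mul_cancel_left]
  have := pow_left_injective hn e
  show x * y = y * x
  conv_rhs => rw [← this]
  group

/-- An abelian subgroup is cyclic. -/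
theorem exists_zpowers_of_commute {S : Set (FreeGroup α)} (hS : ∀ x ∈ S, ∀ y ∈ S, Commute x y) :
    ∃ z, ∀ x ∈ S, x ∈ Subgroup.zpowers z := by
  by_cases h1 : ∀ x ∈ S, x = 1
  · exact ⟨1, fun x hx => by rw [h1 x hx]; exact Subgroup.one_mem _⟩
  push Not at h1
  obtain ⟨u, huS, hu⟩ := h1
  set H := Subgroup.centralizer {u}
  set e := IsFreeGroup.toFreeGroup H
  have hmem : ∀ x ∈ S, x ∈ H := fun x hx =>
    Subgroup.mem_centralizer_singleton_iff.2 (hS x hx u huS).eq
  have hsub : Subsingleton (IsFreeGroup.Generators H) :=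
    subsingleton_of_central (u := e ⟨u, hmem u huS⟩)
      (fun he => hu (congrArg Subtype.val (e.injective (he.trans (_root_.map_one e).symm))))
      fun g => by
        obtain ⟨g, rfl⟩ := e.surjective g
        rw [← _root_.map_mul, ← _root_.map_mul]
        exact congrArg e (Subtype.ext (Subgroup.mem_centralizer_singleton_iff.1 g.2))
  rcases isEmpty_or_nonempty (IsFreeGroup.Generators H) with hX | ⟨⟨i⟩⟩
  · exact absurd (congrArg Subtype.val (e.injective (Subsingleton.elim (e ⟨u, hmem u huS⟩) (e 1))))
      hu
  refine ⟨(e.symm (FreeGroup.of i) : H), fun x hx => ?_⟩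
  have htop : Subgroup.closure (Set.range (FreeGroup.of (α := IsFreeGroup.Generators H))) = ⊤ :=
    FreeGroup.closure_range_of _
  have hrange : Set.range (FreeGroup.of (α := IsFreeGroup.Generators H)) = {FreeGroup.of i} := by
    ext g
    simp only [Set.mem_singleton_iff, Set.mem_range]
    exact ⟨fun ⟨j, hj⟩ => by rw [← hj, Subsingleton.elim j i], fun hg => ⟨i, hg.symm⟩⟩
  rw [hrange] at htop
  obtain ⟨m, hm⟩ := Subgroup.mem_closure_singleton.1 (htop ▸ Subgroup.mem_top (e ⟨x, hmem x hx⟩))
  refine Subgroup.mem_zpowers_iff.2 ⟨m, ?_⟩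
  rw [← Subgroup.coe_zpow, ← _root_.map_zpow, hm, MulEquiv.symm_apply_apply]

theorem length_pow [DecidableEq α] {z : FreeGroup α} (hz : z ≠ 1) (n : ℕ) :
    n ≤ (z ^ n).toWord.length := by
  rcases n with _ | n
  · simp
  have hne : reduceCyclically z.toWord ≠ [] := fun h => hz (by
    have := reduceCyclically.conj_conjugator_reduceCyclically z.toWord
    rw [h, List.append_nil] at this
    rw [← mk_toWord (x := z), ← this, ← mul_mk, ← inv_mk, mul_inv_cancel])
  rw [toWord_pow, reduceCyclically.reduce_flatten_replicate_succ isReduced_toWord]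
  simp only [List.length_append, List.length_flatten, List.map_replicate, List.sum_replicate,
    smul_eq_mul]
  have := Nat.le_mul_of_pos_right (n + 1) (List.length_pos_iff.2 hne)
  omega

/-- **Few commuting elements in a ball.** -/
theorem card_commuting_le [DecidableEq α] {C : Finset (FreeGroup α)} {n : ℕ}
    (hlen : ∀ x ∈ C, x.toWord.length ≤ n) (hC : ∀ x ∈ C, ∀ y ∈ C, Commute x y) :
    #C ≤ 2 * n + 1 := by
  obtain ⟨z, hz⟩ := exists_zpowers_of_commute (S := (C : Set (FreeGroup α))) hC
  refine (Finset.card_le_card (t := (Finset.Icc (-(n : ℤ)) n).image (z ^ ·)) fun x hx => ?_).trans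
    (Finset.card_image_le.trans (by simp; omega))
  obtain ⟨k, rfl⟩ := Subgroup.mem_zpowers_iff.1 (hz x hx)
  rw [Finset.mem_image]
  rcases eq_or_ne z 1 with rfl | hz1
  · exact ⟨0, by simp, by simp⟩
  refine ⟨k, Finset.mem_Icc.2 ?_, rfl⟩
  have h := hlen _ hx
  obtain ⟨m, rfl | rfl⟩ := k.eq_nat_or_neg
  · rw [zpow_natCast] at h
    have := (length_pow hz1 m).trans h
    omega
  · rw [_root_.zpow_neg, zpow_natCast, toWord_inv] at h
    simp only [invRev, List.length_reverse, List.length_map] at h
    have := (length_pow hz1 m).trans h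
    omega

/-- An element commuting with its conjugate by `y` commutes with `y`. -/
theorem commute_of_conj {u y : FreeGroup α} (hu : u ≠ 1) (h : Commute u (y⁻¹ * u * y)) :
    Commute y u := by
  obtain ⟨z, hz⟩ := exists_zpowers_of_commute (S := {g | Commute u g})
    fun a ha b hb => commute_trans hu ha hb
  obtain ⟨k, hk⟩ := Subgroup.mem_zpowers_iff.1 (hz u (Commute.refl u))
  have huz : Commute u z := by rw [← hk]; exact (Commute.refl z).zpow_left k
  have hz1 : z ≠ 1 := fun e => hu (by rw [← hk, e, one_zpow])
  have hne : y⁻¹ * u * y ≠ 1 := fun e => hu (by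
    calc u = y * (y⁻¹ * u * y) * y⁻¹ := by group
      _ = 1 := by rw [e]; group)
  have hne' : y * u * y⁻¹ ≠ 1 := fun e => hu (by
    calc u = y⁻¹ * (y * u * y⁻¹) * y := by group
      _ = 1 := by rw [e]; group)
  have h' : Commute (y * u * y⁻¹) u := by
    simpa [MulAut.conj_apply, mul_assoc] using h.map (MulAut.conj y).toMonoidHom
  obtain ⟨m, hm⟩ := Subgroup.mem_zpowers_iff.1 (hz (y⁻¹ * z * y) (commute_trans hne h.symm
    (by simpa [MulAut.conj_apply] using huz.map (MulAut.conj y⁻¹).toMonoidHom)))
  obtain ⟨m', hm'⟩ := Subgroup.mem_zpowers_iff.1 (hz (y * z * y⁻¹) (commute_trans hne' h'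
    (by simpa [MulAut.conj_apply] using huz.map (MulAut.conj y).toMonoidHom)))
  have hcancel : z ^ (m * m' - 1) = 1 := by
    rw [_root_.zpow_sub, zpow_one, _root_.zpow_mul, hm,
      show y⁻¹ * z * y = MulAut.conj y⁻¹ z by simp, ← _root_.map_zpow, hm']
    simp [mul_assoc]
  have hmm : m * m' = 1 := sub_eq_zero.1 ((IsMulTorsionFree.zpow_eq_one_iff_right hz1).1 hcancel)
  have e : y⁻¹ * y⁻¹ * z * (y * y) = z := by
    calc y⁻¹ * y⁻¹ * z * (y * y) = y⁻¹ * (y⁻¹ * z * y) * y := by group
      _ = MulAut.conj y⁻¹ (z ^ m) := by rw [hm]; simp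
      _ = (y⁻¹ * z * y) ^ m := by rw [_root_.map_zpow]; simp
      _ = z := by
        rw [← hm, ← _root_.zpow_mul]
        rcases Int.eq_one_or_neg_one_of_mul_eq_one hmm with rfl | rfl <;> simp
  have hy2 : Commute (y ^ 2) z := by
    show y ^ 2 * z = z * y ^ 2
    rw [pow_two]
    conv_lhs => rw [← e]
    group
  rw [← hk]
  exact (commute_of_pow two_ne_zero hy2).zpow_right k

open FA.StrongApprox in
/-- **The word vanishes only on commuting pairs.** -/
theorem commute_of_word_eq_one {x y : FreeGroup α} (h : word x y = 1) : Commute x y := by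
  by_contra hxy
  set u := ⁅x, y⁆ with hu
  have hu1 : u ≠ 1 := fun e => hxy (commutatorElement_eq_one_iff_commute.1 e)
  have hconj : Commute u (y⁻¹ * u * y) := by
    have h' : Commute u ⁅x, y⁻¹⁆ := commutatorElement_eq_one_iff_commute.1 h
    have e : ⁅x, y⁻¹⁆ = (y⁻¹ * u * y)⁻¹ := by
      simp only [hu, commutatorElement_def]
      group
    rw [e] at h'
    exact Commute.inv_right_iff.1 h'
  have hyu : Commute y u := commute_of_conj hu1 hconj
  have h2 : x * y * x⁻¹ = u * y := by simp only [hu, commutatorElement_def]; group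
  have h3 : Commute (x * y * x⁻¹) y := by rw [h2]; exact hyu.symm.mul_left (Commute.refl y)
  have hy1 : y ≠ 1 := fun e => hxy (e ▸ Commute.one_right x)
  have h4 : Commute x⁻¹ y := commute_of_conj hy1 (by rw [inv_inv]; exact h3.symm)
  exact hxy (Commute.inv_left_iff.1 h4)

end FA.BourgainGamburd

end
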