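import Fermat.Agent.BourgainGamburd.Flattening

/-!
# The spectral gap

An eigenvalue of the averaging operator on functions of mean zero has multiplicity at least
`(p - 1) / 2`, so the almost uniformity of the walk bounds it away from one.
-/

set_option autoImplicit false

noncomputable section

namespace FA.BourgainGamburd

open Finset Module Helfgott
open scoped InnerProductSpace Classical

variable {G : Type*} [Group G] [Fintype G]

/-- Convolution by a real weight. -/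
def wconv (w : G → ℝ) : EuclideanSpace ℂ G →ₗ[ℂ] EuclideanSpace ℂ G where
  toFun f := WithLp.toLp 2 fun x => ∑ y, (w y : ℂ) * f (y⁻¹ * x)
  map_add' f h := by ext x; simp [mul_add, sum_add_distrib]
  map_smul' a f := by ext x; simp [mul_sum, mul_left_comm]

theorem wconv_apply (w : G → ℝ) (f : EuclideanSpace ℂ G) (x : G) :
    wconv w f x = ∑ y, (w y : ℂ) * f (y⁻¹ * x) := rfl

theorem wconv_rightT (w : G → ℝ) (g : G) (f : EuclideanSpace ℂ G) :
    wconv w (rightT g f) = rightT g (wconv w f) := by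
  ext x
  simp [wconv_apply, rightT_apply, mul_assoc]

theorem wconv_comp (u w : G → ℝ) (f : EuclideanSpace ℂ G) :
    wconv (mconv u w) f = wconv u (wconv w f) := by
  ext x
  simp only [wconv_apply, mconv, Complex.ofReal_sum, Complex.ofReal_mul, sum_mul, mul_sum]
  rw [sum_comm]
  refine sum_congr rfl fun y _ => ?_
  refine Fintype.sum_equiv (Equiv.mulLeft y⁻¹) _ _ fun z => ?_
  simp [mul_assoc]

theorem wconv_symmetric {w : G → ℝ} (hw : ∀ y, w y⁻¹ = w y) : (wconv w).IsSymmetric := fun f h => by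
  simp only [PiLp.inner_apply, wconv_apply, RCLike.inner_apply, map_sum, map_mul, mul_sum, sum_mul,
    Complex.conj_ofReal]
  rw [sum_comm]
  conv_rhs => rw [sum_comm]
  refine Fintype.sum_equiv (Equiv.inv G) _ _ fun y => ?_
  refine Fintype.sum_equiv (Equiv.mulLeft y⁻¹) _ _ fun x => ?_
  simp [hw]
  ring

theorem sum_wconv (w : G → ℝ) (f : EuclideanSpace ℂ G) :
    ∑ x, wconv w f x = (∑ y, (w y : ℂ)) * ∑ x, f x := by
  simp only [wconv_apply]
  rw [sum_comm, sum_mul]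
  refine sum_congr rfl fun y _ => ?_
  rw [← mul_sum]
  congr 1
  exact Fintype.sum_equiv (Equiv.mulLeft y⁻¹) _ _ fun x => rfl

/-- **A large eigenvalue of the walk would have large multiplicity.** -/
theorem walk_eigenvalue_bound [DecidableEq G] {d : ℕ} (hd : Quasirandom G d) (s : Letter → G)
    {r : ℝ} {b : EuclideanSpace ℂ G} (hb : b ∈ meanZero G) (hb0 : b ≠ 0)
    (he : wconv (walk s 1) b = (r : ℂ) • b) (L : ℕ) :
    d * (r ^ 2) ^ L ≤ Fintype.card G * sqNorm (walk s L) := by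
  set V := meanZero G ⊓ Module.End.eigenspace (wconv (walk s 1)) (r : ℂ) with hV
  have hinv : ∀ g, ∀ v ∈ V, rightT g v ∈ V := by
    rintro g v ⟨hv1, hv2⟩
    refine ⟨?_, Module.End.mem_eigenspace_iff.2 ?_⟩
    · show ∑ x, v (x * g) = 0
      rw [Fintype.sum_equiv (Equiv.mulRight g) (fun x => v (x * g)) (fun x => v x) fun x => rfl]
      exact hv1
    · rw [wconv_rightT]
      exact (congrArg (rightT g) (Module.End.mem_eigenspace_iff.1 hv2)).trans (map_smul _ _ _)
  have hbV : b ∈ V := ⟨hb, Module.End.mem_eigenspace_iff.2 he⟩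
  let ρ : Representation ℂ G V :=
    { toFun := fun g => (rightT g).restrict (hinv g)
      map_one' := by
        refine LinearMap.ext fun v => Subtype.ext ?_
        ext x
        simp [rightT_apply]
      map_mul' := fun g h => by
        refine LinearMap.ext fun v => Subtype.ext ?_
        ext x
        simp [rightT_apply, mul_assoc] }
  set e := stdOrthonormalBasis ℂ V
  have hdim : d ≤ finrank ℂ V := by
    let eq : V ≃ₗ[ℂ] (Fin (finrank ℂ V) → ℂ) :=
      e.repr.toLinearEquiv.trans (WithLp.linearEquiv 2 ℂ (Fin (finrank ℂ V) → ℂ))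
    refine hd _ (eq.conjRingEquiv.toMonoidHom.comp ρ) ?_
    by_contra! h
    have hfix : ∀ g, ρ g ⟨b, hbV⟩ = ⟨b, hbV⟩ := fun g => eq.injective (by
      have := h g (eq ⟨b, hbV⟩)
      change eq (ρ g (eq.symm (eq ⟨b, hbV⟩))) = _ at this
      rwa [LinearEquiv.symm_apply_apply] at this)
    refine hb0 ?_
    have hconst : ∀ g, b g = b 1 := fun g => by
      have := congrArg (fun v : V => (v : EuclideanSpace ℂ G) 1) (hfix g)
      simpa [ρ, rightT_apply] using this
    have hsum : ∑ x, b x = 0 := hb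
    rw [Finset.sum_congr rfl fun x _ => hconst x, sum_const, nsmul_eq_mul] at hsum
    ext x
    rw [hconst]
    exact (mul_eq_zero.1 hsum).resolve_left (by simp [Fintype.card_ne_zero])
  have hiter : ∀ (L : ℕ) (v : EuclideanSpace ℂ G), wconv (walk s 1) v = (r : ℂ) • v →
      wconv (walk s L) v = (r : ℂ) ^ L • v := by
    intro L v hv
    induction L with
    | zero =>
      ext x
      simp [wconv_apply, walk, prob, apply_ite Complex.ofReal, ite_mul]
    | succ L ih =>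
      rw [show walk s (L + 1) = mconv (walk s 1) (walk s L) from funext fun z => by
        rw [add_comm]; exact walk_add s 1 L z, wconv_comp, ih, map_smul, hv, smul_smul, pow_succ]
  have hnorm : ∀ i, ‖wconv (walk s L) (e i : EuclideanSpace ℂ G)‖ ^ 2 = (r ^ 2) ^ L := fun i => by
    have h1 : ‖(e i : EuclideanSpace ℂ G)‖ = 1 := e.orthonormal.1 i
    rw [hiter L _ (Module.End.mem_eigenspace_iff.1 (e i).2.2), norm_smul, h1, mul_one, norm_pow,
      Complex.norm_real, Real.norm_eq_abs, ← pow_mul, mul_comm L, pow_mul, sq_abs]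
  let k : G → EuclideanSpace ℂ G := fun x =>
    WithLp.toLp 2 fun y => ((walk s L (x * y⁻¹) : ℝ) : ℂ)
  have hk : ∀ x f, ⟪k x, f⟫_ℂ = wconv (walk s L) f x := fun x f => by
    simp only [PiLp.inner_apply, RCLike.inner_apply, wconv_apply, k, Complex.conj_ofReal]
    refine Fintype.sum_equiv ((Equiv.inv G).trans (Equiv.mulLeft x)) _ _ fun y => ?_
    simp [mul_comm]
  have hkn : ∀ x, ‖k x‖ ^ 2 = sqNorm (walk s L) := fun x => by
    rw [EuclideanSpace.norm_sq_eq]
    simp only [k, Complex.norm_real, Real.norm_eq_abs, sq_abs, sqNorm]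
    exact Fintype.sum_equiv ((Equiv.inv G).trans (Equiv.mulLeft x)) _ _ fun y => rfl
  have horth : Orthonormal ℂ fun i => (e i : EuclideanSpace ℂ G) :=
    e.orthonormal.comp_linearIsometry V.subtypeₗᵢ
  have hbound : (finrank ℂ V : ℝ) * (r ^ 2) ^ L ≤ Fintype.card G * sqNorm (walk s L) := by
    calc (finrank ℂ V : ℝ) * (r ^ 2) ^ L
        = ∑ i, ‖wconv (walk s L) (e i : EuclideanSpace ℂ G)‖ ^ 2 := by simp [hnorm]
      _ = ∑ x, ∑ i, ‖⟪(e i : EuclideanSpace ℂ G), k x⟫_ℂ‖ ^ 2 := by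
          rw [sum_comm]
          refine sum_congr rfl fun i _ => ?_
          rw [EuclideanSpace.norm_sq_eq]
          refine sum_congr rfl fun x _ => ?_
          rw [norm_inner_symm, hk]
      _ ≤ ∑ x, ‖k x‖ ^ 2 := sum_le_sum fun x _ =>
          Orthonormal.sum_inner_products_le (k x) horth (s := univ)
      _ = _ := by simp [hkn]
  exact le_trans (mul_le_mul_of_nonneg_right (by exact_mod_cast hdim) (by positivity)) hbound

/-- Eigenvalue bounds give norm bounds. -/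
theorem norm_wconv_le {w : G → ℝ} (hw : ∀ y, w y⁻¹ = w y) {κ : ℝ}
    (h : ∀ (r : ℝ) (b : EuclideanSpace ℂ G), b ∈ meanZero G → b ≠ 0 →
      wconv w b = (r : ℂ) • b → r ^ 2 ≤ κ)
    {f : EuclideanSpace ℂ G} (hf : f ∈ meanZero G) : ‖wconv w f‖ ^ 2 ≤ κ * ‖f‖ ^ 2 := by
  have hmaps : ∀ v ∈ meanZero G, wconv w v ∈ meanZero G := fun v hv => by
    show ∑ x, wconv w v x = 0
    rw [sum_wconv, show ∑ x, v x = 0 from hv, mul_zero]
  have hs := (wconv_symmetric hw).restrict_invariant hmaps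
  set bb := hs.eigenvectorBasis rfl
  set lam := hs.eigenvalues rfl
  have hlam : ∀ i, lam i ^ 2 ≤ κ := fun i =>
    h (lam i) (bb i) (bb i).2 (fun h => bb.toBasis.ne_zero i (by simpa using Subtype.ext h))
      (congrArg Subtype.val (hs.apply_eigenvectorBasis rfl i))
  set F : meanZero G := ⟨f, hf⟩
  have e1 : ‖wconv w f‖ = ‖bb.repr ((wconv w).restrict hmaps F)‖ := by
    rw [bb.repr.norm_map]; rfl
  have e2 : ‖f‖ = ‖bb.repr F‖ := by rw [bb.repr.norm_map]; rfl
  rw [e1, e2, EuclideanSpace.norm_sq_eq, EuclideanSpace.norm_sq_eq, mul_sum]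
  refine sum_le_sum fun i _ => ?_
  rw [hs.eigenvectorBasis_apply_self_apply rfl F i, norm_mul, mul_pow]
  refine mul_le_mul_of_nonneg_right ?_ (sq_nonneg _)
  simpa [lam, RCLike.norm_ofReal, sq_abs] using hlam i

open FA.StrongApprox

/-- The displacement of `f` by `g`. -/
def disp (g : G) (f : G → ℝ) : ℝ := ∑ x, (f (g⁻¹ * x) - f x) ^ 2

theorem disp_nonneg (g : G) (f : G → ℝ) : 0 ≤ disp g f := sum_nonneg fun _ _ => sq_nonneg _

theorem disp_mul_le (g h : G) (f : G → ℝ) : disp (g * h) f ≤ 2 * disp h f + 2 * disp g f := by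
  have e : ∑ x, (f (h⁻¹ * (g⁻¹ * x)) - f (g⁻¹ * x)) ^ 2 = disp h f :=
    Fintype.sum_equiv (Equiv.mulLeft g⁻¹) _ _ fun x => rfl
  rw [← e, disp, disp, mul_sum, mul_sum, ← sum_add_distrib]
  refine sum_le_sum fun x _ => ?_
  rw [mul_inv_rev, mul_assoc]
  nlinarith [sq_nonneg (f (h⁻¹ * (g⁻¹ * x)) - 2 * f (g⁻¹ * x) + f x)]

theorem disp_inv (g : G) (f : G → ℝ) : disp g⁻¹ f = disp g f := by
  rw [disp, disp]
  refine Fintype.sum_equiv (Equiv.mulLeft g) _ _ fun x => ?_
  simp only [inv_inv, Equiv.coe_mulLeft, inv_mul_cancel_left]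
  ring

/-- The bound for the eigenvalues coming from a walk of length `O (log q)`. -/
def gapConst (C : ℕ) : ℝ := 1 - 1 / (16 * (C + 1 : ℕ))

theorem gapConst_lt_one (C : ℕ) : gapConst C < 1 := by
  rw [gapConst, sub_lt_self_iff]
  positivity

theorem sq_le_of_decay {C L q : ℕ} (hq : 2 ≤ q) (hLC : L ≤ C * Nat.log 2 q) {r : ℝ}
    (h : (q : ℝ) * ((r ^ 2) ^ L) ^ 4 ≤ 1) : r ^ 2 ≤ gapConst C := by
  set κ : ℝ := gapConst C with hκ
  have hκ1 : κ < 1 := gapConst_lt_one C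
  have hκ0 : 0 ≤ κ := by
    rw [hκ, gapConst, sub_nonneg, div_le_one (by positivity)]
    have : (1 : ℝ) ≤ (C + 1 : ℕ) := by exact_mod_cast Nat.succ_pos C
    linarith
  by_contra! hcon
  set k := Nat.log 2 q
  have hk : 1 ≤ k := Nat.log_pos one_lt_two hq
  have hlow : κ ^ ((4 * (C + 1)) * k) ≤ ((r ^ 2) ^ L) ^ 4 := by
    rw [← pow_mul]
    refine (pow_le_pow_of_le_one hκ0 hκ1.le (m := L * 4) ?_).trans
      (pow_le_pow_left₀ hκ0 hcon.le _)
    calc L * 4 ≤ C * k * 4 := Nat.mul_le_mul_right _ hLC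
      _ ≤ (C + 1) * k * 4 := by gcongr; omega
      _ = _ := by ring
  have hbern : (3 / 4 : ℝ) ≤ κ ^ (4 * (C + 1)) := by
    have h := one_add_mul_le_pow (a := -(1 / (16 * ((C + 1 : ℕ) : ℝ)))) (by
      rw [neg_le_neg_iff, div_le_iff₀ (by positivity)]
      have : (1 : ℝ) ≤ ((C + 1 : ℕ) : ℝ) := by exact_mod_cast Nat.succ_pos C
      linarith) (4 * (C + 1))
    rw [← sub_eq_add_neg, ← gapConst, ← hκ] at h
    refine le_trans (le_of_eq ?_) h
    push_cast
    field_simp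
    ring
  have h2k : (2 : ℝ) ^ k ≤ q := by exact_mod_cast Nat.pow_log_le_self 2 (by omega : q ≠ 0)
  have : (3 / 2 : ℝ) ^ k ≤ 1 := by
    calc (3 / 2 : ℝ) ^ k = 2 ^ k * (3 / 4) ^ k := by rw [← mul_pow]; norm_num
      _ ≤ q * (κ ^ (4 * (C + 1))) ^ k := by gcongr
      _ ≤ q * ((r ^ 2) ^ L) ^ 4 := by rw [← pow_mul]; gcongr
      _ ≤ 1 := h
  exact absurd this (not_le.2 (one_lt_pow₀ (by norm_num) (by omega)))

/-- From eigenvalue bounds to displacements. -/
theorem exists_disp_ge {s : Letter → G} (hs : ∀ c, s (invLetter c) = (s c)⁻¹) {κ : ℝ}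
    (heig : ∀ (r : ℝ) (b : EuclideanSpace ℂ G), b ∈ meanZero G → b ≠ 0 →
      wconv (walk s 1) b = (r : ℂ) • b → r ^ 2 ≤ κ)
    {f : G → ℝ} (hf : ∑ x, f x = 0) : ∃ c, (1 - κ) * ∑ x, f x ^ 2 ≤ disp (s c) f := by
  set F : EuclideanSpace ℂ G := WithLp.toLp 2 fun x => (f x : ℂ)
  have hF : F ∈ meanZero G := by
    show ∑ x, ((f x : ℝ) : ℂ) = 0
    rw [← Complex.ofReal_sum, hf, Complex.ofReal_zero]
  set Tf : G → ℝ := fun x => ∑ y, walk s 1 y * f (y⁻¹ * x)
  have hT : ∑ x, Tf x ^ 2 ≤ κ * ∑ x, f x ^ 2 := by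
    have := norm_wconv_le (w := walk s 1) (walk_inv hs 1) heig hF
    have e : ∀ x, wconv (walk s 1) F x = ((Tf x : ℝ) : ℂ) := fun x => by
      simp [wconv_apply, Tf, F]
    simp only [EuclideanSpace.norm_sq_eq, e] at this
    simpa [F, Complex.norm_real, Real.norm_eq_abs, sq_abs] using this
  have hTf : ∀ x, Tf x = (∑ c, f ((s c)⁻¹ * x)) / 4 := fun x => by
    simp only [Tf, walk_one, div_mul_eq_mul_div, ← sum_div, sum_mul, ite_mul, one_mul, zero_mul]
    rw [sum_comm]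
    simp
  have hsum : ∑ c, disp (s c) f = 8 * ∑ x, f x ^ 2 - 8 * ∑ x, Tf x * f x := by
    have hsq : ∀ c, disp (s c) f = 2 * ∑ x, f x ^ 2 - 2 * ∑ x, f ((s c)⁻¹ * x) * f x := fun c => by
      have e : ∑ x, f ((s c)⁻¹ * x) ^ 2 = ∑ x, f x ^ 2 :=
        Fintype.sum_equiv (Equiv.mulLeft (s c)⁻¹) _ _ fun x => rfl
      simp only [disp, sub_sq, sum_add_distrib, sum_sub_distrib, e, mul_assoc, ← mul_sum]
      ring
    simp only [hsq, sum_sub_distrib, hTf, ← mul_sum, sum_const, card_univ, div_mul_eq_mul_div,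
      ← sum_div, sum_mul]
    rw [sum_comm]
    simp
    ring
  have hinner : ∑ x, Tf x * f x ≤ (1 + κ) / 2 * ∑ x, f x ^ 2 := by
    rw [mul_sum]
    have : ∀ x, Tf x * f x ≤ Tf x ^ 2 / 2 + f x ^ 2 / 2 := fun x => by
      nlinarith [sq_nonneg (Tf x - f x)]
    refine (sum_le_sum fun x _ => this x).trans ?_
    rw [sum_add_distrib, ← sum_div, ← sum_div, ← mul_sum]
    linarith
  obtain ⟨c, -, hc⟩ : ∃ c ∈ (univ : Finset Letter), (1 - κ) * ∑ x, f x ^ 2 ≤ disp (s c) f := by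
    refine exists_le_of_sum_le univ_nonempty ?_
    rw [sum_const, hsum, nsmul_eq_mul, card_univ]
    simp only [Fintype.card_prod, Fintype.card_fin, Fintype.card_bool]
    push_cast
    linarith
  exact ⟨c, hc⟩

/-- **A uniform gap for a free pair.** -/
theorem exists_gap {φ : FreeGroup (Fin 2) →* SL2 ℤ} (hφ : Function.Injective φ) :
    ∃ (γ : ℝ) (N : ℕ), 0 < γ ∧ ∀ (p : ℕ) [Fact p.Prime], N < p →
      ∀ f : SL2 (ZMod p) → ℝ, ∑ x, f x = 0 → ∃ c, γ * ∑ x, f x ^ 2 ≤ disp (stepMod φ p c) f := by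
  obtain ⟨C, N, hC⟩ := sqNorm_walk_le hφ
  refine ⟨1 - gapConst C, max N 81, by linarith [gapConst_lt_one C], fun p _ hp f hf =>
    exists_disp_ge (stepMod_inv φ) (fun r b hb hb0 he => ?_) hf⟩
  have hp81 : 81 < p := lt_of_le_of_lt (le_max_right _ _) hp
  obtain ⟨L, -, hLC, hM⟩ := hC p (lt_of_le_of_lt (le_max_left _ _) hp)
  refine sq_le_of_decay (by omega) hLC ?_
  have h := walk_eigenvalue_bound quasirandom_SL2 (stepMod φ p) hb hb0 he L
  set m := sqNorm (walk (stepMod φ p) L)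
  have hp0 : (81 : ℝ) ≤ p := by exact_mod_cast hp81.le
  have hd : (p : ℝ) ≤ 3 * (((p - 1) / 2 : ℕ) : ℝ) := by
    exact_mod_cast (show p ≤ 3 * ((p - 1) / 2) by omega)
  have hcard : (Fintype.card (SL2 (ZMod p)) : ℝ) ≤ (p : ℝ) ^ 3 := by
    exact_mod_cast card_SL2_le (p := p)
  set t := (r ^ 2) ^ L with ht
  have ht0 : 0 ≤ t := by positivity
  have hm0 : 0 ≤ m := sqNorm_nonneg _
  have h1 : (p : ℝ) * t ≤ 3 * ((p : ℝ) ^ 3 * m) := by
    calc (p : ℝ) * t ≤ 3 * (((p - 1) / 2 : ℕ) : ℝ) * t := mul_le_mul_of_nonneg_right hd ht0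
      _ = 3 * ((((p - 1) / 2 : ℕ) : ℝ) * t) := mul_assoc ..
      _ ≤ 3 * (Fintype.card (SL2 (ZMod p)) * m) := by linarith
      _ ≤ _ := by gcongr
  have h2 : (p : ℝ) * t ^ 2 ≤ 9 := by
    refine le_of_mul_le_mul_left ?_ (show (0 : ℝ) < p by linarith)
    calc (p : ℝ) * (p * t ^ 2) = (p * t) ^ 2 := by ring
      _ ≤ (3 * ((p : ℝ) ^ 3 * m)) ^ 2 := pow_le_pow_left₀ (by positivity) h1 2
      _ = 9 * p * (m ^ 2 * (p : ℝ) ^ 5) := by ring
      _ ≤ 9 * p * 1 := by gcongr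
      _ = _ := by ring
  refine le_of_mul_le_mul_left ?_ (show (0 : ℝ) < p by linarith)
  calc (p : ℝ) * (p * t ^ 4) = (p * t ^ 2) ^ 2 := by ring
    _ ≤ 9 ^ 2 := pow_le_pow_left₀ (by positivity) h2 2
    _ ≤ _ := by linarith

end FA.BourgainGamburd

end
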