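import Fermat.Agent.BourgainGamburd.Gap
import Fermat.Agent.StrongApproximation.Main

/-!
# The theorem of Bourgain and Gamburd

A gap for a free pair gives one for every finite set generating a group which is not virtually
solvable, and so expansion; conversely expansion gives surjectivity modulo all large primes.
-/

set_option autoImplicit false

noncomputable section

namespace FA.BourgainGamburd

open Finset FA.StrongApprox
open scoped Pointwise

theorem disp_one {G : Type*} [Group G] [Fintype G] (f : G → ℝ) : disp (1 : G) f = 0 := by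
  simp [disp]

/-- Displacements by elements of a group are bounded by those by its generators. -/
theorem disp_map_le {Γ : Type*} [Group Γ] {S : Finset Γ} {g : Γ}
    (hg : g ∈ Subgroup.closure (S : Set Γ)) :
    ∃ W : ℝ, 0 ≤ W ∧ ∀ {G : Type} [Group G] [Fintype G] (π : Γ →* G) (f : G → ℝ) (ε : ℝ),
      (∀ s ∈ S, disp (π s) f ≤ ε) → 0 ≤ ε → disp (π g) f ≤ W * ε := by
  induction hg using Subgroup.closure_induction with
  | mem s hs => exact ⟨1, zero_le_one, fun π f ε h _ => by rw [one_mul]; exact h s hs⟩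
  | one => exact ⟨0, le_rfl, fun π f ε _ _ => by rw [map_one, disp_one, zero_mul]⟩
  | mul a b _ _ iha ihb =>
    obtain ⟨W₁, h₁, iha⟩ := iha
    obtain ⟨W₂, h₂, ihb⟩ := ihb
    refine ⟨2 * W₂ + 2 * W₁, by positivity, fun π f ε h hε => ?_⟩
    rw [map_mul]
    refine (disp_mul_le _ _ f).trans ?_
    linarith [iha π f ε h hε, ihb π f ε h hε]
  | inv a _ iha =>
    obtain ⟨W, hW, iha⟩ := iha
    exact ⟨W, hW, fun π f ε h hε => by rw [map_inv, disp_inv]; exact iha π f ε h hε⟩

/-- **The theorem of Bourgain and Gamburd.** -/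
theorem gap_of_not_virtSolvable {S : Finset (SL2 ℤ)}
    (h : ¬ VirtSolvable (Subgroup.closure (S : Set (SL2 ℤ)))) :
    ∃ (c : ℝ) (N : ℕ), 0 < c ∧ ∀ (p : ℕ) [Fact p.Prime], N < p →
      ∀ f : SL2 (ZMod p) → ℝ, ∑ x, f x = 0 → ∃ s ∈ S, c * ∑ x, f x ^ 2 ≤ disp (red p s) f := by
  have hSne : S.Nonempty := by
    rcases S.eq_empty_or_nonempty with rfl | h' <;> [skip; exact h']
    refine absurd ?_ h
    have : Subsingleton (Subgroup.closure ((∅ : Finset (SL2 ℤ)) : Set (SL2 ℤ))) := by
      rw [coe_empty, Subgroup.closure_empty]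
      infer_instance
    exact ⟨⊤, inferInstance, inferInstance⟩
  obtain ⟨f₀, hf₀⟩ :=
    (virtSolvable_or_free (Subgroup.fg_iff _ |>.2 ⟨_, rfl, S.finite_toSet⟩)).resolve_left h
  set φ := (Subgroup.closure (S : Set (SL2 ℤ))).subtype.comp f₀
  obtain ⟨γ, N, hγ, hgap⟩ := exists_gap (φ := φ) (Subtype.val_injective.comp hf₀)
  have hW := fun c : Letter => disp_map_le (g := φ (letter c)) (f₀ (letter c)).2
  choose W hW0 hW using hW
  set T := ∑ c, W c
  have hT : 0 ≤ T := sum_nonneg fun c _ => hW0 c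
  refine ⟨γ / (T + 1), N, by positivity, fun p _ hp f hf => ?_⟩
  by_contra! hall
  set σ := ∑ x, f x ^ 2
  obtain ⟨c, hc⟩ := hgap p hp f hf
  have hσ0 : 0 ≤ σ := sum_nonneg fun _ _ => sq_nonneg _
  have hε : 0 ≤ γ / (T + 1) * σ := by positivity
  have h1 : γ * σ ≤ T * (γ / (T + 1) * σ) :=
    hc.trans ((hW c (red p) f _ (fun s hs => (hall s hs).le) hε).trans (mul_le_mul_of_nonneg_right
      (single_le_sum (fun c _ => hW0 c) (mem_univ c)) hε))
  have hσ : σ = 0 := by
    have h2 : (T + 1) * (γ / (T + 1) * σ) = γ * σ := by field_simp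
    have h3 : γ / (T + 1) * σ = 0 := by linarith
    exact (mul_eq_zero.1 h3).resolve_left (by positivity)
  obtain ⟨s, hs⟩ := hSne
  have := hall s hs
  rw [hσ, mul_zero] at this
  linarith [disp_nonneg (red p s) f]

/-- **Expansion.** -/
theorem expansion_of_not_virtSolvable {S : Finset (SL2 ℤ)}
    (h : ¬ VirtSolvable (Subgroup.closure (S : Set (SL2 ℤ)))) :
    ∃ (c : ℝ) (N : ℕ), 0 < c ∧ ∀ (p : ℕ) [Fact p.Prime], N < p →
      ∀ X : Finset (SL2 (ZMod p)), 2 * #X ≤ Fintype.card (SL2 (ZMod p)) →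
        (1 + c) * #X ≤ (#(X ∪ S.image (red p) * X) : ℝ) := by
  obtain ⟨c, N, hc, hgap⟩ := gap_of_not_virtSolvable h
  refine ⟨c / 4, N, by positivity, fun p _ hp X hX => ?_⟩
  set n : ℝ := (#X : ℝ)
  set g : ℝ := (Fintype.card (SL2 (ZMod p)) : ℝ)
  have hg : 0 < g := Nat.cast_pos.2 Fintype.card_pos
  set β := n / g with hβ
  set f : SL2 (ZMod p) → ℝ := fun x => (if x ∈ X then 1 else 0) - β
  have hsum : ∑ x, f x = 0 := by
    simp only [f, sum_sub_distrib, sum_const, nsmul_eq_mul, card_univ, sum_boole, filter_univ_mem]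
    rw [hβ, mul_div_cancel₀ _ hg.ne']
    exact sub_self _
  have hsq : n / 2 ≤ ∑ x, f x ^ 2 := by
    have e : ∀ x, f x ^ 2 = (1 - 2 * β) * (if x ∈ X then 1 else 0) + β ^ 2 := fun x => by
      simp only [f]; split_ifs <;> ring
    simp only [e, sum_add_distrib, ← mul_sum, sum_boole, filter_univ_mem, sum_const, nsmul_eq_mul,
      card_univ]
    have h2 : g * β ^ 2 = n * β := by rw [hβ]; field_simp
    have h3 : β ≤ 1 / 2 := by
      rw [hβ, div_le_iff₀ hg]
      have : (2 : ℝ) * n ≤ g := by simp only [n, g]; exact_mod_cast hX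
      linarith
    have h4 : 0 ≤ n := Nat.cast_nonneg _
    show n / 2 ≤ (1 - 2 * β) * n + g * β ^ 2
    rw [h2]
    nlinarith
  obtain ⟨s, hs, hle⟩ := hgap p hp f hsum
  set t := red p s
  set Y := X.image (t * ·)
  have hYX : #Y = #X := card_image_of_injective _ (mul_right_injective t)
  have hdisp : disp t f = 2 * (#(Y \ X) : ℝ) := by
    have hmem : ∀ x, (t⁻¹ * x ∈ X) ↔ x ∈ Y := fun x => by simp [Y]
    have e : ∀ x, (f (t⁻¹ * x) - f x) ^ 2 =
        (if x ∈ Y \ X then (1 : ℝ) else 0) + (if x ∈ X \ Y then 1 else 0) := fun x => by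
      simp only [f, hmem, mem_sdiff]
      split_ifs <;> first | tauto | ring
    rw [disp, sum_congr rfl fun x _ => e x, sum_add_distrib, sum_boole, sum_boole, filter_univ_mem,
      filter_univ_mem, card_sdiff_comm hYX]
    ring
  have hsub : X ∪ (Y \ X) ⊆ X ∪ S.image (red p) * X := by
    refine union_subset_union_right fun y hy => ?_
    obtain ⟨x, hx, rfl⟩ := mem_image.1 (mem_sdiff.1 hy).1
    exact mul_mem_mul (mem_image_of_mem _ hs) hx
  have hcard : n + #(Y \ X) ≤ (#(X ∪ S.image (red p) * X) : ℝ) := by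
    have := card_le_card hsub
    rw [card_union_of_disjoint disjoint_sdiff] at this
    simp only [n]
    exact_mod_cast this
  have := mul_le_mul_of_nonneg_left hsq hc.le
  linarith

/-- **Conversely**, expansion forces surjectivity. -/
theorem onto_of_expansion {S : Finset (SL2 ℤ)} {c : ℝ} (hc : 0 < c) {p : ℕ} [Fact p.Prime]
    (h : ∀ X : Finset (SL2 (ZMod p)), 2 * #X ≤ Fintype.card (SL2 (ZMod p)) →
      (1 + c) * #X ≤ (#(X ∪ S.image (red p) * X) : ℝ)) :
    Onto (Subgroup.closure (S : Set (SL2 ℤ))) p := by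
  classical
  by_contra hne
  set H := (Subgroup.closure (S : Set (SL2 ℤ))).map (red p)
  set X := (univ : Finset (SL2 (ZMod p))).filter (· ∈ H)
  have hX : #X = Nat.card H := by
    rw [Nat.card_eq_fintype_card, Fintype.card_subtype]
  have hidx : 2 * #X ≤ Fintype.card (SL2 (ZMod p)) := by
    rw [hX, ← Nat.card_eq_fintype_card, ← H.index_mul_card]
    refine Nat.mul_le_mul_right _ ?_
    have h1 : H.index ≠ 0 := Subgroup.index_ne_zero_of_finite
    have h2 : H.index ≠ 1 := fun e => hne (Subgroup.index_eq_one.1 e)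
    omega
  have hinv : X ∪ S.image (red p) * X = X := by
    refine union_eq_left.2 fun y hy => ?_
    obtain ⟨a, ha, b, hb, rfl⟩ := mem_mul.1 hy
    obtain ⟨s, hs, rfl⟩ := mem_image.1 ha
    exact mem_filter.2 ⟨mem_univ _, H.mul_mem ⟨s, Subgroup.subset_closure hs, rfl⟩
      (mem_filter.1 hb).2⟩
  have h' := h X hidx
  rw [hinv] at h'
  have : (0 : ℝ) < #X := by
    exact_mod_cast card_pos.2 ⟨1, mem_filter.2 ⟨mem_univ _, H.one_mem⟩⟩
  nlinarith

end FA.BourgainGamburd

end
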